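/-
S33 wiring (helper4), part 1: **compatibility of the Kummer maps** `alptKummer p N k : TT → J₀(N)[p^k]`
in `k`:  `κ_k x = p • κ_{k+1} x` in `J₀(N)`.

* `s33w_class_mul`   : `[div(y)/m] = p • [div(y)/(p m)]`;
* `s33w_kumX_pow`    : `KumX_m (χ^p) = p • KumX_{p m} χ`;
* `s33w_kummer_succ` : `κ_k x = p • κ_{k+1} x`;
* `s33w_kummer_smul` : `κ_k (a • x) = (appr a k) • κ_k x` (`ℤ_p`-linearity).
-/
import Fermat.Agent.Lib.Alpha.Tate.Package

set_option autoImplicit false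
set_option linter.style.haveILetI false
set_option linter.unusedSectionVars false

namespace Fermat.Agent.S33W

open Complex Set Filter Topology Matrix MatrixGroups CongruenceSubgroup ModularCurve
open UpperHalfPlane hiding I
open Fermat.Agent.S24Lib ModularCurve.Period
open AlgebraicCurve Fermat.Agent.T1 Fermat.Agent.Alpha

local notation "Kbar" => AlgebraicClosure ℚ
local notation "GQ" => (AlgebraicClosure ℚ ≃ₐ[ℚ] AlgebraicClosure ℚ)

section General

variable {K F : Type*} [Field K] [Field F] [Algebra K F] [HasPrincipalDivisors K F]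

/-- `[div(y)/m] = p • [div(y)/(p m)]` -/
theorem s33w_class_mul {p m : ℕ} (hp : p ≠ 0) (hm : m ≠ 0) (y : Fˣ)
    (hy : ∀ v : Place K F, ((p * m : ℕ) : ℤ) ∣ v.ord (y : F))
    (hy' : ∀ v : Place K F, (m : ℤ) ∣ v.ord (y : F)) :
    alpfClass hm y hy' = (p : ℤ) • alpfClass (Nat.mul_ne_zero hp hm) y hy := by
  unfold alpfClass Pic0.mk
  rw [← QuotientAddGroup.mk_zsmul]
  congr 1
  apply Subtype.ext
  ext v
  show alpfDivQuot (K := K) m y v = ((p : ℤ) • alpfDivQuot (K := K) (p * m) y) v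
  rw [Finsupp.smul_apply, alpfDivQuot_apply, alpfDivQuot_apply, smul_eq_mul]
  obtain ⟨c, hc⟩ := hy v
  rw [hc]
  push_cast
  have hp' : (p : ℤ) ≠ 0 := by exact_mod_cast hp
  have hm' : (m : ℤ) ≠ 0 := by exact_mod_cast hm
  rw [Int.mul_ediv_cancel_left _ (mul_ne_zero hp' hm'), mul_assoc, mul_comm (p : ℤ),
    mul_assoc, Int.mul_ediv_cancel_left _ hm', mul_comm]

end General

section Modular

variable (N : ℕ) [NeZero N]

/-- `KumX_m (χ ^ p) = p • KumX_{p m} χ` -/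
theorem s33w_kumX_pow {p m M : ℕ} (hp : p ≠ 0) (hm : m ≠ 0) (hM : M ≠ 0) (hMpm : M = p * m)
    (χ : tdmX N M) (χ' : tdmX N m)
    (hχ : (χ' : Gamma0 N →* ℂˣ) = (χ : Gamma0 N →* ℂˣ) ^ p) :
    ((Multiplicative.toAdd (alptKumX N m hm χ') :
        ↥(Submodule.torsionBy ℤ (JZero N) (m : ℤ))) : JZero N) =
      (p : ℤ) • ((Multiplicative.toAdd (alptKumX N M hM χ) :
        ↥(Submodule.torsionBy ℤ (JZero N) (M : ℤ))) : JZero N) := by
  subst hMpm
  obtain ⟨y, rfl⟩ := (tddDescent N).psi_surjective hM χ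
  have h1 : χ' = (tddDict Kbar N).psi hm ⟨y.1, tdm_tWsub_mul_le p m y.2⟩ := by
    apply Subtype.ext
    rw [hχ, (tddDict Kbar N).psi_mul hp hm y]
  rw [h1, alptKumX_psi, alptKumX_psi, alptKumW_coe, alptKumW_coe]
  exact s33w_class_mul hp hm y.1 y.2 _

end Modular

section Tower

variable (p : ℕ) [hp : Fact p.Prime] (N : ℕ) [NeZero N]

/-- **compatibility of the Kummer maps**: `κ_k x = p • κ_{k+1} x` -/
theorem s33w_kummer_succ (k : ℕ) (x : ↥(parabolicHoms ℤ_[p] (Gamma0 N) ℤ_[p])) :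
    ((alptKummer p N k x : ↥(Submodule.torsionBy ℤ (JZero N) ((p : ℤ) ^ k))) : JZero N) =
      (p : ℤ) • ((alptKummer p N (k + 1) x :
        ↥(Submodule.torsionBy ℤ (JZero N) ((p : ℤ) ^ (k + 1)))) : JZero N) := by
  rw [alptKummer_apply, alptKummer_apply, alptCast_coe, alptCast_coe]
  refine s33w_kumX_pow N hp.out.ne_zero (tdm_prime_pow_ne_zero p k)
    (tdm_prime_pow_ne_zero p (k + 1)) (pow_succ' p k) _ _ ?_
  rw [← (tdmTowerN p N).π_ι k x]
  ext γ
  rw [tdmTowerN_π_apply]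
  rfl

end Tower

end Fermat.Agent.S33W
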