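/-
S33 wiring (helper4), part 12: **the connected model of `C[p]` for every `𝔓`, `N'` with `4 ∣ N'`**,
hence `S33Gamma p N` for all `N` with `p ∥ N`.

* `s33w_model_final` : `S33wModel 𝔓 N' h` from helper9's `s33q_exists_setup` (the `T2Setup` of the
  symmetric chart over `ℚ̄`, `Qb/Setup.lean`) and `s33w_model_of_setup'` (`Wire/Lift.lean`);
* `s33w_gamma_final` : `S33Gamma p N` (`s33w_gamma_of_models`), the input of `s33w_main`.
-/
import Mathlib
import Fermat.Agent.Lib.S33.Wire.Lift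
import Fermat.Agent.Lib.S33.Qb.Setup

set_option autoImplicit false
set_option linter.unusedSectionVars false
set_option linter.unusedVariables false
set_option linter.style.haveILetI false
set_option synthInstance.maxHeartbeats 400000

namespace Fermat.Agent.S33W

open AlgebraicCurve ModularCurve Fermat.Agent.T1 Fermat.Agent.TW Fermat.Agent.S33
  Fermat.Agent.T2 Fermat.Agent.S33Q Fermat.Agent.S24Lib

local notation "Qb" => AlgebraicClosure ℚ

noncomputable section

attribute [local instance] s33g_neZero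
attribute [local instance] t2i_dvr t2i_isAlgClosed t2i_charP t2i_fact

variable (𝔓 : FFPlace) (N' : ℕ) [NeZero N'] (h : ¬ 𝔓.p ∣ N')

/-- the two names of `ξ` -/
theorem s33w_xi_eq : s33qXi 𝔓 N' = t2sfXi (IsLocalRing.ResidueField ↥𝔓.P) 𝔓.p N' := by
  rw [s33qXi, t2sfXi_eq, ← sq]
  rfl

set_option maxHeartbeats 1600000 in
/-- **the connected model of `C[p]`** -/
theorem s33w_model_final (h4 : 4 ∣ N') : S33wModel 𝔓 N' h := by
  obtain ⟨n, su, hsx, -, -, -, hsxb⟩ := s33q_exists_setup 𝔓 N' h (Or.inl h4)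
  have hsx' : su.x = s33biX 𝔓 N' h := hsx
  rw [s33w_xi_eq] at hsxb
  exact s33w_model_of_setup' 𝔓 N' h su hsx' hsxb

end

/-- **(Γ) for every level `N` with `p ∥ N`** -/
theorem s33w_gamma_final {p : ℕ} (hp : p.Prime) (hp2 : p ≠ 2) (N : ℕ) [NeZero N]
    (hN : p ∣ N ∧ ¬ p ^ 2 ∣ N) : S33Gamma p N :=
  s33w_gamma_of_models hp hp2 (fun 𝔓 N' _ h _ h4 => s33w_model_final 𝔓 N' h h4) N hN

end Fermat.Agent.S33W
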