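/-
S33 wiring (helper4), part 2: **the abstract formal-part argument**.

`T` a free `ℤ_p`-module of finite rank with an action `gal` of a group `G`, `J` a `G`-module with
equivariant "Kummer maps" `κ k : T → J` (kernel `p^k T`, `κ k = p • κ (k+1)`), `I ≤ G` a subgroup and
`C ≤ J` a subgroup such that `I` acts trivially on the `p`-power torsion of `J` modulo `C` (F12) and
`(C[p])^d` has no non-zero `I`-trivial sub-quotient (F3).

* `s33wT00`        : the saturated submodule `T⁰⁰ = {x : ∀ k, κ k x ∈ C}` of `T`, `(σ - 1) T ⊆ T⁰⁰` for `σ ∈ I`;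
* `s33wM00 A`      : its base change `A ⊗ T⁰⁰ ⊆ A ⊗ T`, saturated, `(σ - 1)(A ⊗ T) ⊆ A ⊗ T⁰⁰`;
* `s33w_not_le`    : a saturated `I`-stable `A`-lattice `Λ ⊆ A ⊗ T` having a proper subgroup `K ⊇ p Λ` with
  `(σ - 1) Λ ⊆ K` (an `I`-trivial non-zero quotient of `Λ / p Λ`) is NOT contained in `A ⊗ T⁰⁰`.
-/
import Mathlib

set_option autoImplicit false
set_option linter.unusedSectionVars false
set_option linter.unusedVariables false
set_option linter.style.haveILetI false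

open scoped TensorProduct

namespace Fermat.Agent.S33W

noncomputable section

section Abs

variable {p : ℕ} [hp : Fact p.Prime]
  {T : Type} [AddCommGroup T] [Module ℤ_[p] T]
  {G : Type} [Group G]
  {J : Type} [AddCommGroup J] [DistribMulAction G J]

/-- the hypotheses on the Kummer maps and on the subgroup `C` (F12) -/
structure S33wData (κ : ℕ → T →+ J) (gal : G →* Module.End ℤ_[p] T) (I : Subgroup G)
    (C : AddSubgroup J) : Prop where
  ker : ∀ (k : ℕ) (x : T), κ k x = 0 → ∃ w : T, x = (p : ℤ_[p]) ^ k • w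
  succ : ∀ (k : ℕ) (x : T), κ k x = p • κ (k + 1) x
  smul : ∀ (k : ℕ) (a : ℤ_[p]) (x : T), ∃ n : ℕ, κ k (a • x) = n • κ k x
  tors : ∀ (k : ℕ) (x : T), p ^ k • κ k x = 0
  gal : ∀ (k : ℕ) (σ : G) (x : T), κ k (gal σ x) = σ • κ k x
  f12 : ∀ σ ∈ I, ∀ (k : ℕ) (y : J), p ^ k • y = 0 → σ • y - y ∈ C

variable {κ : ℕ → T →+ J} {gal : G →* Module.End ℤ_[p] T} {I : Subgroup G} {C : AddSubgroup J}

/-- the formal part `T⁰⁰` of `T` -/
def s33wT00 (D : S33wData κ gal I C) : Submodule ℤ_[p] T where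
  carrier := {x | ∀ k, κ k x ∈ C}
  add_mem' {x y} hx hy k := by
    rw [map_add]
    exact C.add_mem (hx k) (hy k)
  zero_mem' k := by
    rw [map_zero]
    exact C.zero_mem
  smul_mem' a x hx k := by
    obtain ⟨n, hn⟩ := D.smul k a x
    show κ k (a • x) ∈ C
    rw [hn]
    exact C.nsmul_mem (hx k) n

theorem s33w_mem_T00 (D : S33wData κ gal I C) {x : T} : x ∈ s33wT00 D ↔ ∀ k, κ k x ∈ C := Iff.rfl

/-- `T⁰⁰` is saturated with respect to `p` -/
theorem s33w_T00_sat_p (D : S33wData κ gal I C) {x : T} (h : (p : ℤ_[p]) • x ∈ s33wT00 D) :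
    x ∈ s33wT00 D := by
  intro k
  have h1 := h (k + 1)
  rw [Nat.cast_smul_eq_nsmul, map_nsmul] at h1
  rw [D.succ k x]
  exact h1

/-- `T⁰⁰` is saturated -/
theorem s33w_T00_sat (D : S33wData κ gal I C) {a : ℤ_[p]} (ha : a ≠ 0) {x : T}
    (h : a • x ∈ s33wT00 D) : x ∈ s33wT00 D := by
  have hpow : ∀ (n : ℕ) (y : T), (p : ℤ_[p]) ^ n • y ∈ s33wT00 D → y ∈ s33wT00 D := by
    intro n
    induction n with
    | zero =>
      intro y hy
      rwa [pow_zero, one_smul] at hy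
    | succ n ih =>
      intro y hy
      rw [pow_succ, mul_smul] at hy
      exact s33w_T00_sat_p D (ih _ hy)
  have h1 := PadicInt.unitCoeff_spec ha
  rw [h1, mul_smul] at h
  have h2 : (p : ℤ_[p]) ^ a.valuation • x ∈ s33wT00 D := by
    have h3 := (s33wT00 D).smul_mem ((PadicInt.unitCoeff ha)⁻¹ : ℤ_[p]ˣ) h
    rwa [← mul_smul, Units.inv_mul, one_smul] at h3
  exact hpow _ _ h2

/-- inertia acts trivially on `T / T⁰⁰` -/
theorem s33w_gal_sub_mem (D : S33wData κ gal I C) {σ : G} (hσ : σ ∈ I) (x : T) :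
    gal σ x - x ∈ s33wT00 D := by
  intro k
  rw [map_sub, D.gal]
  exact D.f12 σ hσ k _ (D.tors k x)

theorem s33w_gal_mem (D : S33wData κ gal I C) {σ : G} (hσ : σ ∈ I) {x : T}
    (hx : x ∈ s33wT00 D) : gal σ x ∈ s33wT00 D := by
  have h := (s33wT00 D).add_mem (s33w_gal_sub_mem D hσ x) hx
  rwa [sub_add_cancel] at h

end Abs

section BaseChange

variable {p : ℕ} [hp : Fact p.Prime]
  {T : Type} [AddCommGroup T] [Module ℤ_[p] T] [Module.Free ℤ_[p] T] [Module.Finite ℤ_[p] T]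
  {G : Type} [Group G]
  {J : Type} [AddCommGroup J] [DistribMulAction G J]
  {κ : ℕ → T →+ J} {gal : G →* Module.End ℤ_[p] T} {I : Subgroup G} {C : AddSubgroup J}
  (A : Type) [CommRing A] [IsDomain A] [Algebra ℤ_[p] A]

/-- the base change `A ⊗ T⁰⁰ ⊆ A ⊗ T` -/
def s33wM00 (D : S33wData κ gal I C) : Submodule A (A ⊗[ℤ_[p]] T) :=
  LinearMap.range ((s33wT00 D).subtype.baseChange A)

theorem s33w_tmul_mem (D : S33wData κ gal I C) (a : A) {x : T} (hx : x ∈ s33wT00 D) :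
    a ⊗ₜ[ℤ_[p]] x ∈ s33wM00 A D :=
  ⟨a ⊗ₜ[ℤ_[p]] (⟨x, hx⟩ : s33wT00 D), by rw [LinearMap.baseChange_tmul]; rfl⟩

/-- the quotient `T / T⁰⁰` is torsion free -/
theorem s33w_quot_torsionFree (D : S33wData κ gal I C) :
    Module.IsTorsionFree ℤ_[p] (T ⧸ s33wT00 D) := by
  refine Module.IsTorsionFree.of_smul_eq_zero fun a x h => ?_
  induction x using Submodule.Quotient.induction_on with
  | H x =>
    by_cases ha : a = 0
    · exact Or.inl ha
    · right
      rw [← Submodule.Quotient.mk_smul, Submodule.Quotient.mk_eq_zero] at h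
      rw [Submodule.Quotient.mk_eq_zero]
      exact s33w_T00_sat D ha h

/-- membership in `A ⊗ T⁰⁰` is the vanishing in `A ⊗ (T / T⁰⁰)` -/
theorem s33w_mem_M00_iff (D : S33wData κ gal I C) (m : A ⊗[ℤ_[p]] T) :
    m ∈ s33wM00 A D ↔ (s33wT00 D).mkQ.baseChange A m = 0 := by
  have hex : Function.Exact ((s33wT00 D).subtype) ((s33wT00 D).mkQ) := by
    intro x
    rw [Submodule.mkQ_apply, Submodule.Quotient.mk_eq_zero]
    constructor
    · intro hx
      exact ⟨⟨x, hx⟩, rfl⟩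
    · rintro ⟨y, rfl⟩
      exact y.2
  have h1 := lTensor_exact A hex (Submodule.mkQ_surjective _)
  have h2 := h1 m
  constructor
  · rintro ⟨z, rfl⟩
    exact h2.mpr ⟨z, rfl⟩
  · intro h
    obtain ⟨z, hz⟩ := h2.mp h
    exact ⟨z, hz⟩

/-- `A ⊗ T⁰⁰` is saturated in `A ⊗ T` -/
theorem s33w_M00_sat (D : S33wData κ gal I C) {a : A} (ha : a ≠ 0) {m : A ⊗[ℤ_[p]] T}
    (h : a • m ∈ s33wM00 A D) : m ∈ s33wM00 A D := by
  rw [s33w_mem_M00_iff] at h ⊢
  haveI := s33w_quot_torsionFree D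
  haveI : Module.Free ℤ_[p] (T ⧸ s33wT00 D) := Module.free_of_finite_type_torsion_free'
  haveI : Module.Free A (A ⊗[ℤ_[p]] (T ⧸ s33wT00 D)) := inferInstance
  rw [map_smul] at h
  exact (smul_eq_zero.mp h).resolve_left ha

/-- inertia acts trivially on `(A ⊗ T) / (A ⊗ T⁰⁰)` -/
theorem s33w_baseChange_sub_mem (D : S33wData κ gal I C) {σ : G} (hσ : σ ∈ I)
    (m : A ⊗[ℤ_[p]] T) : (gal σ).baseChange A m - m ∈ s33wM00 A D := by
  induction m using TensorProduct.induction_on with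
  | zero =>
    rw [map_zero, sub_zero]
    exact Submodule.zero_mem _
  | tmul a x =>
    rw [LinearMap.baseChange_tmul, ← TensorProduct.tmul_sub]
    exact s33w_tmul_mem A D a (s33w_gal_sub_mem D hσ x)
  | add m m' hm hm' =>
    rw [map_add, add_sub_add_comm]
    exact Submodule.add_mem _ hm hm'

theorem s33w_baseChange_mem (D : S33wData κ gal I C) {σ : G} (hσ : σ ∈ I)
    {m : A ⊗[ℤ_[p]] T} (hm : m ∈ s33wM00 A D) : (gal σ).baseChange A m ∈ s33wM00 A D := by
  have h := (s33wM00 A D).add_mem (s33w_baseChange_sub_mem A D hσ m) hm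
  rwa [sub_add_cancel] at h

/-- representatives of `A / p A` -/
theorem s33w_exists_reps [Finite (A ⧸ Ideal.span {(p : A)})] :
    ∃ (r : ℕ) (g : Fin r → A), ∀ a : A, ∃ (i : Fin r) (a' : A), a = g i + (p : A) * a' := by
  classical
  let e := Finite.equivFin (A ⧸ Ideal.span {(p : A)})
  refine ⟨Nat.card (A ⧸ Ideal.span {(p : A)}), fun i => Quotient.out (e.symm i), fun a => ?_⟩
  refine ⟨e (Ideal.Quotient.mk _ a), ?_⟩
  have h1 : Ideal.Quotient.mk (Ideal.span {(p : A)})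
      (a - Quotient.out (e.symm (e (Ideal.Quotient.mk _ a)))) = 0 := by
    rw [map_sub, e.symm_apply_apply, sub_eq_zero]
    exact (Quotient.out_eq _).symm
  rw [Ideal.Quotient.eq_zero_iff_mem, Ideal.mem_span_singleton] at h1
  obtain ⟨a', ha'⟩ := h1
  exact ⟨a', by rw [← ha']; ring⟩

/-- the map `(x_i) ↦ Σ g_i ⊗ x_i` -/
def s33wPsi {r : ℕ} (g : Fin r → A) : (Fin r → T) →+ A ⊗[ℤ_[p]] T where
  toFun x := ∑ i, g i ⊗ₜ[ℤ_[p]] x i
  map_zero' := by
    simp only [Pi.zero_apply, TensorProduct.tmul_zero, Finset.sum_const_zero]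
  map_add' x y := by
    simp only [Pi.add_apply, TensorProduct.tmul_add, Finset.sum_add_distrib]

theorem s33wPsi_single {r : ℕ} (g : Fin r → A) (i : Fin r) (t : T) :
    s33wPsi (p := p) A g (Pi.single i t) = g i ⊗ₜ[ℤ_[p]] t := by
  classical
  show ∑ j, g j ⊗ₜ[ℤ_[p]] (Pi.single i t : Fin r → T) j = _
  rw [Finset.sum_eq_single i]
  · rw [Pi.single_eq_same]
  · intro j _ hji
    rw [Pi.single_eq_of_ne hji, TensorProduct.tmul_zero]
  · intro h
    exact absurd (Finset.mem_univ i) h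

theorem s33wPsi_mem (D : S33wData κ gal I C) {r : ℕ} (g : Fin r → A) {x : Fin r → T}
    (hx : ∀ i, x i ∈ s33wT00 D) : s33wPsi (p := p) A g x ∈ s33wM00 A D := by
  show ∑ i, g i ⊗ₜ[ℤ_[p]] x i ∈ s33wM00 A D
  exact Submodule.sum_mem _ fun i _ => s33w_tmul_mem A D (g i) (hx i)

theorem s33wPsi_gal {r : ℕ} (g : Fin r → A) (f : Module.End ℤ_[p] T) (x : Fin r → T) :
    f.baseChange A (s33wPsi (p := p) A g x) = s33wPsi (p := p) A g (fun i => f (x i)) := by
  show f.baseChange A (∑ i, g i ⊗ₜ[ℤ_[p]] x i) = ∑ i, g i ⊗ₜ[ℤ_[p]] f (x i)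
  rw [map_sum]
  exact Finset.sum_congr rfl fun i _ => LinearMap.baseChange_tmul _ _ _

theorem s33wPsi_smul {r : ℕ} (g : Fin r → A) (x : Fin r → T) :
    s33wPsi (p := p) A g (fun i => (p : ℤ_[p]) • x i) = (p : A) • s33wPsi (p := p) A g x := by
  show ∑ i, g i ⊗ₜ[ℤ_[p]] ((p : ℤ_[p]) • x i) = (p : A) • ∑ i, g i ⊗ₜ[ℤ_[p]] x i
  rw [Finset.smul_sum]
  refine Finset.sum_congr rfl fun i _ => ?_
  rw [TensorProduct.tmul_smul, TensorProduct.smul_tmul', TensorProduct.smul_tmul',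
    Algebra.smul_def, map_natCast, smul_eq_mul]

/-- every element of `A ⊗ T⁰⁰` is of the form `Ψ x + p • m'` -/
theorem s33w_exists_psi (D : S33wData κ gal I C) {r : ℕ} (g : Fin r → A)
    (hg : ∀ a : A, ∃ (i : Fin r) (a' : A), a = g i + (p : A) * a') {m : A ⊗[ℤ_[p]] T}
    (hm : m ∈ s33wM00 A D) :
    ∃ x : Fin r → T, (∀ i, x i ∈ s33wT00 D) ∧ ∃ m' ∈ s33wM00 A D,
      m = s33wPsi (p := p) A g x + (p : A) • m' := by
  classical
  obtain ⟨z, rfl⟩ := hm
  induction z using TensorProduct.induction_on with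
  | zero =>
    exact ⟨0, fun i => Submodule.zero_mem _, 0, Submodule.zero_mem _, by
      rw [map_zero, map_zero, smul_zero, add_zero]⟩
  | tmul a t =>
    obtain ⟨i, a', ha'⟩ := hg a
    refine ⟨Pi.single i (t : T), fun j => ?_, a' ⊗ₜ[ℤ_[p]] (t : T), s33w_tmul_mem A D a' t.2, ?_⟩
    · by_cases hji : j = i
      · subst hji
        rw [Pi.single_eq_same]
        exact t.2
      · rw [Pi.single_eq_of_ne hji]
        exact Submodule.zero_mem _
    · rw [LinearMap.baseChange_tmul, s33wPsi_single, TensorProduct.smul_tmul', smul_eq_mul,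
        ← TensorProduct.add_tmul, ← ha']
      rfl
  | add z z' hz hz' =>
    obtain ⟨x, hx, m', hm', h1⟩ := hz
    obtain ⟨y, hy, n', hn', h2⟩ := hz'
    refine ⟨x + y, fun i => Submodule.add_mem _ (hx i) (hy i), m' + n',
      Submodule.add_mem _ hm' hn', ?_⟩
    rw [map_add, h1, h2, map_add, smul_add]
    abel

/-- **the formal part contains no lattice with an inertia-trivial quotient**: a `p`-saturated
lattice `Λ ⊆ A ⊗ T` with a proper subgroup `K ⊇ p Λ` such that `(σ - 1) Λ ⊆ K` for `σ ∈ I` is not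
contained in `A ⊗ T⁰⁰` -/
theorem s33w_not_le (D : S33wData κ gal I C)
    (hF3 : ∀ (d : ℕ) (A' B : AddSubgroup (Fin d → J)), A' ≤ B →
      (∀ x ∈ B, ∀ i, x i ∈ C ∧ p • x i = 0) → (∀ σ ∈ I, ∀ x ∈ A', σ • x ∈ A') →
      (∀ σ ∈ I, ∀ x ∈ B, σ • x - x ∈ A') → B ≤ A')
    [Finite (A ⧸ Ideal.span {(p : A)})]
    (Λ : Submodule A (A ⊗[ℤ_[p]] T)) (hΛsat : ∀ m : A ⊗[ℤ_[p]] T, (p : A) • m ∈ Λ → m ∈ Λ)
    (K : AddSubgroup (A ⊗[ℤ_[p]] T)) (hKΛ : ∀ m ∈ K, m ∈ Λ) (hpK : ∀ m ∈ Λ, (p : A) • m ∈ K)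
    (hIK : ∀ σ ∈ I, ∀ m ∈ Λ, (gal σ).baseChange A m - m ∈ K) (hne : ∃ m ∈ Λ, m ∉ K) :
    ¬ Λ ≤ s33wM00 A D := by
  classical
  intro hle
  obtain ⟨r, g, hg⟩ := s33w_exists_reps (p := p) A
  -- stability of `K`
  have hKst : ∀ σ ∈ I, ∀ m ∈ K, (gal σ).baseChange A m ∈ K := by
    intro σ hσ m hm
    have h := K.add_mem (hIK σ hσ m (hKΛ m hm)) hm
    rwa [sub_add_cancel] at h
  -- the two subgroups upstairs
  let Bt : AddSubgroup (Fin r → T) :=
    { carrier := {x | (∀ i, x i ∈ s33wT00 D) ∧ ∃ l ∈ Λ, ∃ m ∈ s33wM00 A D,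
        s33wPsi (p := p) A g x = l + (p : A) • m}
      zero_mem' := ⟨fun i => Submodule.zero_mem _, 0, Submodule.zero_mem _, 0,
        Submodule.zero_mem _, by rw [map_zero, smul_zero, add_zero]⟩
      add_mem' := by
        rintro x y ⟨hx, l, hl, m, hm, h1⟩ ⟨hy, l', hl', m', hm', h2⟩
        refine ⟨fun i => Submodule.add_mem _ (hx i) (hy i), l + l', Submodule.add_mem _ hl hl',
          m + m', Submodule.add_mem _ hm hm', ?_⟩
        rw [map_add, h1, h2, smul_add]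
        abel
      neg_mem' := by
        rintro x ⟨hx, l, hl, m, hm, h1⟩
        refine ⟨fun i => Submodule.neg_mem _ (hx i), -l, Submodule.neg_mem _ hl, -m,
          Submodule.neg_mem _ hm, ?_⟩
        rw [map_neg, h1, smul_neg]
        abel }
  let At : AddSubgroup (Fin r → T) :=
    { carrier := {x | (∀ i, x i ∈ s33wT00 D) ∧ ∃ l ∈ K, ∃ m ∈ s33wM00 A D,
        s33wPsi (p := p) A g x = l + (p : A) • m}
      zero_mem' := ⟨fun i => Submodule.zero_mem _, 0, K.zero_mem, 0,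
        Submodule.zero_mem _, by rw [map_zero, smul_zero, add_zero]⟩
      add_mem' := by
        rintro x y ⟨hx, l, hl, m, hm, h1⟩ ⟨hy, l', hl', m', hm', h2⟩
        refine ⟨fun i => Submodule.add_mem _ (hx i) (hy i), l + l', K.add_mem hl hl',
          m + m', Submodule.add_mem _ hm hm', ?_⟩
        rw [map_add, h1, h2, smul_add]
        abel
      neg_mem' := by
        rintro x ⟨hx, l, hl, m, hm, h1⟩
        refine ⟨fun i => Submodule.neg_mem _ (hx i), -l, K.neg_mem hl, -m,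
          Submodule.neg_mem _ hm, ?_⟩
        rw [map_neg, h1, smul_neg]
        abel }
  -- the map downstairs
  let Km : (Fin r → T) →+ (Fin r → J) :=
    { toFun := fun x i => κ 1 (x i)
      map_zero' := by funext i; exact map_zero _
      map_add' := fun x y => by funext i; exact map_add _ _ _ }
  have hKm : ∀ (σ : G) (x : Fin r → T), σ • Km x = Km (fun i => gal σ (x i)) := by
    intro σ x
    funext i
    show σ • κ 1 (x i) = κ 1 (gal σ (x i))
    rw [D.gal]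
  have hsub : ∀ (σ : G) (x : Fin r → T), (fun i => gal σ (x i)) - x = fun i => gal σ (x i) - x i :=
    fun σ x => rfl
  have hB := hF3 r (At.map Km) (Bt.map Km) ?_ ?_ ?_ ?_
  · -- the contradiction
    obtain ⟨l0, hl0, hl0K⟩ := hne
    obtain ⟨x0, hx0, m0, hm0, h0⟩ := s33w_exists_psi A D g hg (hle hl0)
    have hx0B : x0 ∈ Bt := ⟨hx0, l0, hl0, -m0, Submodule.neg_mem _ hm0, by
      rw [h0, smul_neg]; abel⟩
    obtain ⟨x1, hx1, hx10⟩ := hB (AddSubgroup.mem_map_of_mem Km hx0B)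
    obtain ⟨hx1T, l1, hl1, m1, hm1, h1⟩ := hx1
    -- `x0 - x1 = p w`
    have hw : ∀ i, ∃ w : T, w ∈ s33wT00 D ∧ x0 i - x1 i = (p : ℤ_[p]) • w := by
      intro i
      have h2 : κ 1 (x0 i - x1 i) = 0 := by
        rw [map_sub, sub_eq_zero]
        exact (congrFun hx10 i).symm
      obtain ⟨w, hw⟩ := D.ker 1 _ h2
      rw [pow_one] at hw
      refine ⟨w, s33w_T00_sat_p D ?_, hw⟩
      rw [← hw]
      exact Submodule.sub_mem _ (hx0 i) (hx1T i)
    choose w hwT hw using hw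
    have h3 : s33wPsi (p := p) A g x0 - s33wPsi (p := p) A g x1 =
        (p : A) • s33wPsi (p := p) A g w := by
      rw [← map_sub, ← s33wPsi_smul]
      congr 1
      funext i
      exact hw i
    have h4 : l0 - l1 = (p : A) • (s33wPsi (p := p) A g w + m0 + m1) := by
      have h5 : l0 = s33wPsi (p := p) A g x0 + (p : A) • m0 := h0
      have h6 : l1 = s33wPsi (p := p) A g x1 - (p : A) • m1 := by rw [h1]; abel
      rw [h5, h6, smul_add, smul_add, ← h3]
      abel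
    have h7 : s33wPsi (p := p) A g w + m0 + m1 ∈ Λ := by
      apply hΛsat
      rw [← h4]
      exact Submodule.sub_mem _ hl0 (hKΛ l1 hl1)
    apply hl0K
    have h8 : l0 = l1 + (p : A) • (s33wPsi (p := p) A g w + m0 + m1) := by
      rw [← h4]; abel
    rw [h8]
    exact K.add_mem hl1 (hpK _ h7)
  · -- `A' ≤ B`
    apply AddSubgroup.map_mono
    rintro x ⟨hx, l, hl, m, hm, h1⟩
    exact ⟨hx, l, hKΛ l hl, m, hm, h1⟩
  · -- the elements of `B`
    rintro _ ⟨x, ⟨hx, -⟩, rfl⟩ i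
    refine ⟨hx i 1, ?_⟩
    have := D.tors 1 (x i)
    rwa [pow_one] at this
  · -- stability of `A'`
    rintro σ hσ _ ⟨x, ⟨hx, l, hl, m, hm, h1⟩, rfl⟩
    rw [hKm]
    refine AddSubgroup.mem_map_of_mem Km ⟨fun i => s33w_gal_mem D hσ (hx i),
      (gal σ).baseChange A l, hKst σ hσ l hl, (gal σ).baseChange A m,
      s33w_baseChange_mem A D hσ hm, ?_⟩
    rw [← s33wPsi_gal, h1, map_add, map_smul]
  · -- triviality on `B / A'`
    rintro σ hσ _ ⟨x, ⟨hx, l, hl, m, hm, h1⟩, rfl⟩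
    rw [hKm, ← map_sub, hsub]
    refine AddSubgroup.mem_map_of_mem Km ⟨fun i => s33w_gal_sub_mem D hσ (x i),
      (gal σ).baseChange A l - l, hIK σ hσ l hl, (gal σ).baseChange A m - m,
      s33w_baseChange_sub_mem A D hσ m, ?_⟩
    have h2 : s33wPsi (p := p) A g (fun i => gal σ (x i) - x i) =
        (gal σ).baseChange A (s33wPsi (p := p) A g x) - s33wPsi (p := p) A g x := by
      rw [s33wPsi_gal, ← map_sub]
      rfl
    rw [h2, h1, map_add, map_smul, smul_sub]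
    abel

end BaseChange

end

end Fermat.Agent.S33W
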