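/-
S33 wiring (helper4), part 3: **from the GAMMA export to the points of `T`**.

* `S33Gamma p N` : the literal statement to be delivered by project GAMMA: for every place `𝔓` of `ℚ̄`
  over `p` a subgroup `C ≤ J₀(N)` with (F12) inertia acts trivially on `J₀(N)[p^∞]` modulo `C`, and
  (F3) `(C[p])^d` has no non-zero inertia-trivial sub-quotient;
* `s33wKappa`, `s33w_data` : the Kummer maps of the Tate module `TT` of `J₀(N)` satisfy `S33wData`;
* `s33w_det` : the explicit representation `alppRep` has cyclotomic determinant;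
* `s33w_exists_functional` : the invariant functional of an ordinary residual representation;
* `s33w_identity_gen` : the inertia identity `(ρ'(τ) - det ρ'(τ)) (ρ'(σ) - 1) = 0` for the explicit
  representation `ρ'` attached to a point, from `S33Gamma` and the ordinarity of the residual
  representation;
* `s33w_point` : `S33Point p H P` for every point `P`;
* `s33w_main` : `S33Gamma p N → H.ρ.IsOrdinaryAt p` (the statement of S33 modulo GAMMA).
-/
import Mathlib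
import Fermat.Agent.Lib.S33.Wire.Compat
import Fermat.Agent.Lib.S33.Wire.Abstract
import Fermat.Agent.Lib.S33.Pointwise
import Fermat.Agent.Lib.S33.Points
import Fermat.Agent.Lib.Alpha.S32.Point
import Fermat.Agent.Lib.TW.Flat.Base

set_option autoImplicit false
set_option linter.unusedSectionVars false
set_option linter.unusedVariables false
set_option linter.style.haveILetI false

namespace Fermat.Agent.S33W

open Complex Set Filter Topology Matrix MatrixGroups CongruenceSubgroup ModularCurve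
open UpperHalfPlane hiding I
open Fermat.Agent.S24Lib ModularCurve.Period
open AlgebraicCurve Fermat.Agent.T1 Fermat.Agent.Alpha Fermat.Agent.S33L IsLocalRing Polynomial
open scoped TensorProduct

local notation "Kbar" => AlgebraicClosure ℚ
local notation "GQ" => (AlgebraicClosure ℚ ≃ₐ[ℚ] AlgebraicClosure ℚ)

noncomputable section

/-- **the GAMMA export**: the formal part of the `p`-power torsion of `J₀(N)` at the places over
`p` -/
def S33Gamma (p N : ℕ) [NeZero N] : Prop :=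
  ∀ 𝔓 : Fermat.Agent.TW.FFPlace, 𝔓.p = p → ∃ C : AddSubgroup (JZero N),
    (∀ σ ∈ 𝔓.I, ∀ (k : ℕ) (x : JZero N), p ^ k • x = 0 → σ • x - x ∈ C) ∧
    (∀ (d : ℕ) (A B : AddSubgroup (Fin d → JZero N)), A ≤ B →
      (∀ x ∈ B, ∀ i, x i ∈ C ∧ p • x i = 0) → (∀ σ ∈ 𝔓.I, ∀ x ∈ A, σ • x ∈ A) →
      (∀ σ ∈ 𝔓.I, ∀ x ∈ B, σ • x - x ∈ A) → B ≤ A)

section Data

variable (p : ℕ) [hp : Fact p.Prime] (N : ℕ) [NeZero N]

set_option quotPrecheck false in
local notation "TT" => ↥(parabolicHoms ℤ_[p] (Gamma0 N) ℤ_[p])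

/-- the Kummer maps with values in `J₀(N)` -/
def s33wKappa (k : ℕ) : TT →+ JZero N :=
  (Submodule.subtype (Submodule.torsionBy ℤ (JZero N) ((p : ℤ) ^ k))).toAddMonoidHom.comp
    (alptKummer p N k)

theorem s33wKappa_apply (k : ℕ) (x : TT) :
    s33wKappa p N k x = ((alptKummer p N k x :
      ↥(Submodule.torsionBy ℤ (JZero N) ((p : ℤ) ^ k))) : JZero N) := rfl

/-- the Kummer maps of the Tate module satisfy the hypotheses of the abstract argument -/
theorem s33w_data (I : Subgroup GQ) (C : AddSubgroup (JZero N))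
    (hF12 : ∀ σ ∈ I, ∀ (k : ℕ) (x : JZero N), p ^ k • x = 0 → σ • x - x ∈ C) :
    S33wData (s33wKappa p N) (alptGal p N) I C where
  ker k x h := by
    apply (alptKummer_eq_zero_iff p N k x).mp
    apply Subtype.ext
    exact h
  succ k x := by
    rw [s33wKappa_apply, s33wKappa_apply, s33w_kummer_succ, natCast_zsmul]
  smul k a x := by
    refine ⟨PadicInt.appr a k, ?_⟩
    show ((alptKummer p N k (a • x) : ↥(Submodule.torsionBy ℤ (JZero N) ((p : ℤ) ^ k))) : JZero N)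
      = PadicInt.appr a k • ((alptKummer p N k x :
        ↥(Submodule.torsionBy ℤ (JZero N) ((p : ℤ) ^ k))) : JZero N)
    have h1 : alptKummer p N k (a • x) = PadicInt.appr a k • alptKummer p N k x := by
      unfold alptKummer
      rw [AddMonoidHom.comp_apply, (tdmTowerN p N).ι_smul, map_nsmul]
      rfl
    rw [h1]
    rfl
  tors k x := by
    have h1 := (alptKummer p N k x).2
    rw [Submodule.mem_torsionBy_iff] at h1
    rw [s33wKappa_apply, ← natCast_zsmul, Nat.cast_pow]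
    exact h1
  gal k σ x := by
    rw [s33wKappa_apply, s33wKappa_apply, alptKummer_gal]
    rfl
  f12 := hF12

end Data

section Det

variable (p : ℕ) [hp : Fact p.Prime] (N : ℕ) [NeZero N]
  {A : Type} [CommRing A] [IsDomain A] [IsDiscreteValuationRing A] [CharZero A]
  [Algebra ℤ_[p] A]

/-- the explicit representation has cyclotomic determinant -/
theorem s33w_det (S : Finset ℕ) (hpS : p ∈ S) (hNS : ∀ q : ℕ, q.Prime → q ∣ N → q ∈ S)
    (hpA : (p : A) ∈ maximalIdeal A) (hp0 : (p : A) ≠ 0)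
    (lam : CuspForm.heckeAlgebra N 2 (∅ : Set ℕ) →+* A)
    (h2 : Module.finrank A ↥(teEigen (tdmHeckeP p N) lam) = 2) :
    (alppRep p N hpA hp0 lam h2).DetIsCyclotomic p := by
  obtain ⟨hcomm, hcont, hunr, hES, h56⟩ := alpt_package p N
  obtain ⟨-, c, hcv⟩ := h56 A lam
  have hlp : ∀ l : ℕ, l.Prime → l ∉ S → ¬ l ∣ N ∧ l ≠ p := fun l hl hlS =>
    ⟨fun h => hlS (hNS l hl h), fun h => hlS (h ▸ hpS)⟩
  exact (te_charpoly_of_quadratic p (alppRep p N hpA hp0 lam h2) S hpA hpS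
    (fun l hl hlS A' hA' φ hφ => ⟨_,
      teRep_quadratic (alptGal p N) (tdmHeckeP p N) hcomm hcont hpA hp0 lam h2 φ
        (CuspForm.heckeAlgebra.T hl (hlp l hl hlS).1 (Set.notMem_empty l)) l
        (hES l hl (hlp l hl hlS).1 (hlp l hl hlS).2 A' hA' φ hφ)⟩)
    ⟨c, teRep_not_scalar (alptGal p N) (tdmHeckeP p N) hcomm hcont hpA hp0 lam h2 c hcv⟩).1

end Det

section Functional

variable {A : Type} [CommRing A] [IsLocalRing A]

/-- the invariant functional `V → k` given by a line of `k ⊗ V` modulo which a subgroup acts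
trivially (any local ring) -/
theorem s33w_exists_functional (ρ : GaloisRepAdic A) (I : Subgroup GQ)
    (Lb : Submodule (ResidueField A) (ResidueField A ⊗[A] ρ.V))
    (bb : Module.Basis (Fin 2) (ResidueField A) (ResidueField A ⊗[A] ρ.V))
    (hLb : Lb = Submodule.span (ResidueField A) {bb 0})
    (hI : ∀ σ ∈ I, ∀ w : ResidueField A ⊗[A] ρ.V,
      (ρ.ρ σ).baseChange (ResidueField A) w - w ∈ Lb) :
    ∃ φ : ρ.V →ₗ[A] ResidueField A, Function.Surjective φ ∧ ∀ σ ∈ I, ∀ v, φ (ρ.ρ σ v) = φ v := by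
  classical
  set φb : (ResidueField A ⊗[A] ρ.V) →ₗ[ResidueField A] ResidueField A := bb.coord 1 with hφb
  set φ : ρ.V →ₗ[A] ResidueField A :=
    (φb.restrictScalars A).comp (TensorProduct.mk A (ResidueField A) ρ.V 1) with hφ
  have hφapp : ∀ v, φ v = φb ((1 : ResidueField A) ⊗ₜ[A] v) := fun v => rfl
  have hφL : ∀ w ∈ Lb, φb w = 0 := by
    intro w hw
    rw [hLb] at hw
    obtain ⟨a, rfl⟩ := Submodule.mem_span_singleton.mp hw
    rw [map_smul, hφb, Module.Basis.coord_apply, Module.Basis.repr_self,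
      Finsupp.single_apply, if_neg (by decide), smul_zero]
  refine ⟨φ, ?_, ?_⟩
  · intro y
    have hs := TensorProduct.mk_surjective A ρ.V (ResidueField A)
      (Ideal.Quotient.mk_surjective (I := maximalIdeal A))
    obtain ⟨v, hv⟩ := hs (y • bb 1)
    refine ⟨v, ?_⟩
    rw [hφapp]
    change φb (TensorProduct.mk A (ResidueField A) ρ.V 1 v) = y
    rw [hv, map_smul, hφb, Module.Basis.coord_apply, Module.Basis.repr_self,
      Finsupp.single_eq_same, smul_eq_mul, mul_one]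
  · intro σ hσ v
    have h1 := hI σ hσ ((1 : ResidueField A) ⊗ₜ[A] v)
    rw [LinearMap.baseChange_tmul] at h1
    have h3 := hφL _ h1
    rw [map_sub, sub_eq_zero] at h3
    rw [hφapp, hφapp]
    exact h3

/-- **transport of an invariant functional** along a semilinear equivariant map respecting
bases -/
theorem s33w_functional_transport {T : Type} [CommRing T] [IsLocalRing T]
    (ρ : GaloisRepAdic T) (ρ' : GaloisRepAdic A) (φ : T →+* A) [IsLocalHom φ]
    (j : ρ.V →+ ρ'.V)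
    (hjσ : ∀ (σ : GQ) (v : ρ.V), j (ρ.ρ σ v) = ρ'.ρ σ (j v))
    (b : Module.Basis (Fin 2) T ρ.V) (b' : Module.Basis (Fin 2) A ρ'.V)
    (hb : ∀ i, b' i = j (b i))
    (hrepr : ∀ (v : ρ.V) (i : Fin 2), b'.repr (j v) i = φ (b.repr v i))
    (I : Subgroup GQ) (f : ρ.V →ₗ[T] ResidueField T) (hfs : Function.Surjective f)
    (hfI : ∀ σ ∈ I, ∀ v, f (ρ.ρ σ v) = f v) :
    ∃ f' : ρ'.V →ₗ[A] ResidueField A, (∃ w, f' w ≠ 0) ∧ ∀ σ ∈ I, ∀ w, f' (ρ'.ρ σ w) = f' w := by
  classical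
  set ι : ResidueField T →+* ResidueField A := ResidueField.map φ with hι
  set f' : ρ'.V →ₗ[A] ResidueField A := b'.constr A (fun i => ι (f (b i))) with hf'
  have hf'b : ∀ i, f' (b' i) = ι (f (b i)) := fun i => by
    rw [hf', Module.Basis.constr_basis]
  -- `f' ∘ j = ι ∘ f`
  have hf'j : ∀ v : ρ.V, f' (j v) = ι (f v) := by
    intro v
    have h1 : j v = ∑ i, φ (b.repr v i) • b' i := by
      conv_lhs => rw [← b'.sum_repr (j v)]
      exact Finset.sum_congr rfl fun i _ => by rw [hrepr]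
    have h2 : v = ∑ i, b.repr v i • b i := (b.sum_repr v).symm
    rw [h1, map_sum]
    conv_rhs => rw [h2, map_sum, map_sum]
    refine Finset.sum_congr rfl fun i _ => ?_
    rw [map_smul, map_smul, hf'b, Algebra.smul_def, Algebra.smul_def, map_mul,
      ResidueField.algebraMap_eq, ResidueField.algebraMap_eq, hι, ResidueField.map_residue]
  refine ⟨f', ?_, ?_⟩
  · obtain ⟨v, hv⟩ := hfs 1
    refine ⟨j v, ?_⟩
    rw [hf'j, hv, map_one]
    exact one_ne_zero
  · intro σ hσ w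
    have h1 : f'.comp (ρ'.ρ σ) = f' := by
      apply b'.ext
      intro i
      rw [LinearMap.comp_apply, hb, ← hjσ, hf'j, hf'j, hfI σ hσ]
    exact LinearMap.congr_fun h1 w

end Functional

section Identity

variable {p : ℕ} [hp : Fact p.Prime] {N : ℕ} [NeZero N]
  {A : Type} [CommRing A] [IsDomain A] [IsDiscreteValuationRing A]
  [Algebra ℤ_[p] A] [Finite (ResidueField A)]

/-- **the inertia identity for a lattice in `A ⊗ TT`** from the GAMMA export and an
inertia-invariant non-zero functional to the residue field -/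
theorem s33w_identity_gen (hΓ : S33Gamma p N)
    (hpA : (p : A) ∈ maximalIdeal A) (hp0 : (p : A) ≠ 0)
    (Pv : ValuationSubring Kbar) (hPv : Pv.LiesOverPrime p)
    {V : Type} [AddCommGroup V] [Module A V] [Module.Free A V] [Module.Finite A V]
    (h2 : Module.finrank A V = 2)
    (ι : V →ₗ[A] A ⊗[ℤ_[p]] ↥(parabolicHoms ℤ_[p] (Gamma0 N) ℤ_[p]))
    (hι : Function.Injective ι)
    (hΛsat : ∀ m : A ⊗[ℤ_[p]] ↥(parabolicHoms ℤ_[p] (Gamma0 N) ℤ_[p]),
      (p : A) • m ∈ LinearMap.range ι → m ∈ LinearMap.range ι)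
    (r : GQ →* Module.End A V)
    (hr : ∀ (σ : GQ) (x : V), ι (r σ x) = (alptGal p N σ).baseChange A (ι x))
    (hσ0 : ∃ σ0 ∈ Pv.inertiaSubgroupIn ℚ, LinearMap.det (r σ0) ≠ 1)
    (f' : V →ₗ[A] ResidueField A) (hf'0 : ∃ w, f' w ≠ 0)
    (hf'I : ∀ σ ∈ Pv.inertiaSubgroupIn ℚ, ∀ w, f' (r σ w) = f' w) :
    ∀ σ ∈ Pv.inertiaSubgroupIn ℚ, ∀ τ ∈ Pv.inertiaSubgroupIn ℚ,
      (r τ - LinearMap.det (r τ) • (1 : Module.End A V)) * (r σ - 1) = 0 := by
  classical
  set 𝔓 : Fermat.Agent.TW.FFPlace := ⟨Pv, p, hp.out, hPv⟩ with h𝔓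
  obtain ⟨C, hF12, hF3⟩ := hΓ 𝔓 rfl
  have hI𝔓 : 𝔓.I = Pv.inertiaSubgroupIn ℚ := rfl
  have D := s33w_data p N 𝔓.I C hF12
  let L : Submodule A V := Submodule.comap ι (s33wM00 A D)
  have hLmem : ∀ x : V, x ∈ L ↔ ι x ∈ s33wM00 A D := fun x => Iff.rfl
  haveI : Finite (A ⧸ Ideal.span {(p : A)}) := alpp_finite_quot _ hp0
  refine s33_pointwise h2 r (Pv.inertiaSubgroupIn ℚ) L ?_ ?_ ?_ hσ0
  · intro a x ha hx
    rw [hLmem] at hx ⊢
    rw [map_smul] at hx
    exact s33w_M00_sat A D ha hx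
  · intro σ hσ x
    rw [hLmem, map_sub, hr]
    exact s33w_baseChange_sub_mem A D (hI𝔓 ▸ hσ) _
  · intro htop
    -- the subgroup `K = ι (ker f')`
    let K : AddSubgroup (A ⊗[ℤ_[p]] ↥(parabolicHoms ℤ_[p] (Gamma0 N) ℤ_[p])) :=
      { carrier := {m | ∃ v : V, f' v = 0 ∧ ι v = m}
        zero_mem' := ⟨0, map_zero f', map_zero ι⟩
        add_mem' := by
          rintro m m' ⟨v, hv, rfl⟩ ⟨v', hv', rfl⟩
          exact ⟨v + v', by rw [map_add, hv, hv', add_zero], map_add ι v v'⟩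
        neg_mem' := by
          rintro m ⟨v, hv, rfl⟩
          exact ⟨-v, by rw [map_neg, hv, neg_zero], map_neg ι v⟩ }
    refine s33w_not_le A D hF3 (LinearMap.range ι) hΛsat K ?_ ?_ ?_ ?_ ?_
    · rintro m ⟨v, -, rfl⟩
      exact LinearMap.mem_range_self ι v
    · rintro m ⟨v, rfl⟩
      refine ⟨(p : A) • v, ?_, map_smul ι _ v⟩
      rw [map_smul, Algebra.smul_def, ResidueField.algebraMap_eq,
        (residue_eq_zero_iff _).mpr hpA, zero_mul]
    · rintro σ hσ m ⟨v, rfl⟩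
      have hσ' : σ ∈ Pv.inertiaSubgroupIn ℚ := hσ
      refine ⟨r σ v - v, ?_, ?_⟩
      · rw [map_sub, hf'I σ hσ', sub_self]
      · rw [map_sub, hr]
    · obtain ⟨w, hw⟩ := hf'0
      refine ⟨ι w, LinearMap.mem_range_self ι w, ?_⟩
      rintro ⟨v, hv, hvw⟩
      rw [hι hvw] at hv
      exact hw hv
    · rintro m ⟨v, rfl⟩
      have h1 : v ∈ L := by
        rw [htop]
        exact Submodule.mem_top
      exact h1

end Identity

section Point

variable {p : ℕ} [Fact p.Prime] {N : ℕ} [NeZero N] {S : Finset ℕ}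
  {𝒪 : Type} [CommRing 𝒪] [IsDomain 𝒪] [IsDiscreteValuationRing 𝒪]
  [IsAdicComplete (IsLocalRing.maximalIdeal 𝒪) 𝒪]
  {θ : CuspForm.heckeAlgebra N 2 (↑S : Set ℕ) →+* IsLocalRing.ResidueField 𝒪}
  {T : Type} [CommRing T] [IsLocalRing T] [IsNoetherianRing T]
  [IsAdicComplete (IsLocalRing.maximalIdeal T) T] [Algebra 𝒪 T] [IsLocalHom (algebraMap 𝒪 T)]
  [Module.Finite 𝒪 T] [Module.Free 𝒪 T]

/-- **the per-point statement of S33** from the GAMMA export -/
theorem s33w_point (hΓ : S33Gamma p N) (h3 : 3 ≤ p)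
    (hp𝒪 : (p : 𝒪) ∈ IsLocalRing.maximalIdeal 𝒪)
    (hpS : p ∈ S) (hNS : ∀ q : ℕ, q.Prime → q ∣ N → q ∈ S)
    (H : CuspForm.HeckeGaloisRepDatum N (↑S : Set ℕ) 𝒪 θ T)
    (hres : (GaloisRepAdic.ofResidualGaloisRep H.ρ.residual).IsOrdinaryAt p)
    (P : AlpqPoint 𝒪 T) : S33Point p H P := by
  classical
  have hpR : (p : P.R) ∈ maximalIdeal P.R := P.natCast_mem hp𝒪
  obtain ⟨𝒪'', i1, i2, i3, i4, i5, i6, i7, i8, i9, hinj, lam, hlam⟩ :=
    ter_extension p N (↑S : Set ℕ) P.R hpR ((P.ψ : T →+* P.R).comp H.π)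
  have hp'' : (p : 𝒪'') ∈ maximalIdeal 𝒪'' := by
    have h := map_nonunit (algebraMap P.R 𝒪'') _ hpR
    rwa [map_natCast] at h
  have hp0 : (p : 𝒪'') ≠ 0 := Nat.cast_ne_zero.2 (Fact.out : p.Prime).ne_zero
  letI : Algebra ℤ_[p] 𝒪'' := tePadicAlgebra p 𝒪'' hp''
  have h2 := alpp_finrank p N lam
  have hchar : ∀ (ℓ : ℕ) (hℓ : ℓ.Prime) (hℓN : ¬ ℓ ∣ N) (hℓS : ℓ ∉ (↑S : Set ℕ)),
      ∀ Pv : ValuationSubring Kbar, Pv.LiesOverPrime ℓ → ∀ σ : GQ, Pv.IsFrobeniusAt σ ℓ →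
      LinearMap.charpoly ((alppRep p N hp'' hp0 lam h2).ρ σ) =
        X ^ 2 - C (algebraMap P.R 𝒪'' (P.ψ (H.π (CuspForm.heckeAlgebra.T hℓ hℓN hℓS)))) * X
          + C ((ℓ : 𝒪'')) := by
    intro ℓ hℓ hℓN hℓS A hA σ hσ
    have hℓS' : ℓ ∉ S := hℓS
    rw [alpp_charpoly p N S hpS hNS hp'' hp0 lam h2 ℓ hℓ hℓN hℓS' A hA σ hσ]
    have h3 := hlam (CuspForm.heckeAlgebra.T hℓ hℓN hℓS)
    have h4 : algebraMap P.R 𝒪'' (P.ψ (H.π (CuspForm.heckeAlgebra.T hℓ hℓN hℓS))) =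
        algebraMap P.R 𝒪'' (((P.ψ : T →+* P.R).comp H.π) (CuspForm.heckeAlgebra.T hℓ hℓN hℓS)) :=
      rfl
    rw [h4, ← h3]
    rfl
  have hcyc := s33w_det p N S hpS hNS hp'' hp0 lam h2
  refine ⟨𝒪'', i1, inferInstance, inferInstance, algebraMap P.R 𝒪'', i9, hinj,
    alppRep p N hp'' hp0 lam h2, hchar, hcyc, ?_⟩
  intro Pv hPv
  -- the invariant functional of the residual representation, transported to the point
  obtain ⟨Lb, ⟨bb, hLb⟩, -, hLbI⟩ := hres Pv hPv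
  obtain ⟨f, hfs, hfI⟩ :=
    s33w_exists_functional H.ρ (Pv.inertiaSubgroupIn ℚ) Lb bb hLb hLbI
  haveI := P.isLocalHom_ψ
  haveI hφ : IsLocalHom ((algebraMap P.R 𝒪'').comp (P.ψ : T →+* P.R)) :=
    RingHom.isLocalHom_comp (algebraMap P.R 𝒪'') (P.ψ : T →+* P.R)
  obtain ⟨j, hj, hjσ, hbas⟩ := alpy_rigid_datum hNS H
    ((algebraMap P.R 𝒪'').comp (P.ψ : T →+* P.R)) hφ (alppRep p N hp'' hp0 lam h2) hchar
  obtain ⟨b', hb', hrepr⟩ :=
    hbas (Fin 2) (Module.finBasisOfFinrankEq T H.ρ.V H.ρ.finrank_eq)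
  obtain ⟨f', hf'0, hf'I⟩ := s33w_functional_transport H.ρ (alppRep p N hp'' hp0 lam h2)
    ((algebraMap P.R 𝒪'').comp (P.ψ : T →+* P.R)) j hjσ
    (Module.finBasisOfFinrankEq T H.ρ.V H.ρ.finrank_eq) b' hb' hrepr
    (Pv.inertiaSubgroupIn ℚ) f hfs hfI
  obtain ⟨σ0, hσ0, hu⟩ :=
    s33_exists_det_unit (alppRep p N hp'' hp0 lam h2) p h3 hcyc Pv hPv
  refine s33w_identity_gen hΓ hp'' hp0 Pv hPv (V := (alppRep p N hp'' hp0 lam h2).V)
    (alppRep p N hp'' hp0 lam h2).finrank_eq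
    (teEigen (tdmHeckeP p N) lam).subtype Subtype.val_injective ?_
    (alppRep p N hp'' hp0 lam h2).ρ ?_ ⟨σ0, hσ0, ?_⟩ f' hf'0 hf'I
  · intro m hm
    obtain ⟨v, hv⟩ := hm
    have hm' : (p : 𝒪'') • m ∈ teEigen (tdmHeckeP p N) lam := by
      rw [← hv]
      exact v.2
    exact ⟨⟨m, teEigen_saturated (tdmHeckeP p N) lam hp0 hm'⟩, rfl⟩
  · intro σ x
    rfl
  · intro h1
    rw [h1, sub_self] at hu
    exact not_isUnit_zero hu

/-- **S33 from the GAMMA export** -/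
theorem s33w_main [Finite (IsLocalRing.ResidueField 𝒪)] [CharZero 𝒪]
    (hΓ : S33Gamma p N) (hp2 : p ≠ 2)
    (hp𝒪 : (p : 𝒪) ∈ IsLocalRing.maximalIdeal 𝒪) (hpN : p ∣ N)
    (hNS : ∀ q : ℕ, q.Prime → q ∣ N → q ∈ S)
    (H : CuspForm.HeckeGaloisRepDatum N (↑S : Set ℕ) 𝒪 θ T)
    (hres : (GaloisRepAdic.ofResidualGaloisRep H.ρ.residual).IsOrdinaryAt p) :
    H.ρ.IsOrdinaryAt p := by
  have hp : p.Prime := Fact.out
  have h3 : 3 ≤ p := by
    have := hp.two_le
    omega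
  exact s33_of_points hp hp2 hNS H
    (fun P => s33w_point hΓ h3 hp𝒪 (hNS p hp hpN) hNS H hres P)

end Point

end

end Fermat.Agent.S33W
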