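/-
S33 wiring (helper4), part 4: **level lowering for the GAMMA export**.

* `s33w_gamma_cast` : `S33Gamma p M` depends only on the value of the level;
* `s33w_gamma_level` : `S33Gamma p (N * e) → S33Gamma p N` (pull back the subgroup `C` along the
  injective-on-torsion Galois-equivariant map `t3pPull N e : J₀(N) → J₀(N e)`);
* `s33w_gamma_of_good` : `S33Gamma p N` for `N = N' p`, `p ∤ N'`, `p` odd, from the statement at the
  good levels `N'' p` (`4 ∣ N''`, `p ∤ N''`).
-/
import Mathlib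
import Fermat.Agent.Lib.S33.Wire.Point
import Fermat.Agent.Lib.T3.Pull.Torsion

set_option autoImplicit false
set_option linter.unusedSectionVars false
set_option linter.unusedVariables false
set_option linter.style.haveILetI false

namespace Fermat.Agent.S33W

open AlgebraicCurve ModularCurve Fermat.Agent.T3

local notation "Kbar" => AlgebraicClosure ℚ
local notation "GQ" => (AlgebraicClosure ℚ ≃ₐ[ℚ] AlgebraicClosure ℚ)

/-- the GAMMA export depends only on the value of the level -/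
theorem s33w_gamma_cast {p M M' : ℕ} [NeZero M] [NeZero M'] (h : M = M')
    (hΓ : S33Gamma p M) : S33Gamma p M' := by
  subst h
  exact hΓ

section Level

variable {p : ℕ} (N e : ℕ) [NeZero N] [NeZero e]

/-- **level lowering**: the GAMMA export at level `N e` gives the GAMMA export at level `N` -/
theorem s33w_gamma_level (hp0 : p ≠ 0) (hΓ : S33Gamma p (N * e)) : S33Gamma p N := by
  classical
  intro 𝔓 h𝔓
  obtain ⟨C, hF12, hF3⟩ := hΓ 𝔓 h𝔓
  refine ⟨C.comap (t3pPull N e), ?_, ?_⟩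
  · intro σ hσ k x hx
    rw [AddSubgroup.mem_comap, map_sub, t3pPull_galois]
    refine hF12 σ hσ k _ ?_
    rw [← map_nsmul, hx, map_zero]
  · intro d A B hAB hB hA hBA
    -- push the two subgroups forward along the pull-back
    let Φ : (Fin d → JZero N) →+ (Fin d → JZero (N * e)) := (t3pPull N e).compLeft (Fin d)
    have hΦapp : ∀ (x : Fin d → JZero N) (i : Fin d), Φ x i = t3pPull N e (x i) :=
      fun x i => rfl
    have hΦσ : ∀ (σ : GQ) (x : Fin d → JZero N), Φ (σ • x) = σ • Φ x := by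
      intro σ x
      funext i
      rw [hΦapp, Pi.smul_apply, Pi.smul_apply, hΦapp, t3pPull_galois]
    have hle : B.map Φ ≤ A.map Φ := by
      refine hF3 d (A.map Φ) (B.map Φ) (AddSubgroup.map_mono hAB) ?_ ?_ ?_
      · rintro y ⟨x, hx, rfl⟩ i
        obtain ⟨h1, h2⟩ := hB x hx i
        refine ⟨h1, ?_⟩
        rw [hΦapp, ← map_nsmul, h2, map_zero]
      · rintro σ hσ y ⟨x, hx, rfl⟩
        exact ⟨σ • x, hA σ hσ x hx, hΦσ σ x⟩
      · rintro σ hσ y ⟨x, hx, rfl⟩
        refine ⟨σ • x - x, hBA σ hσ x hx, ?_⟩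
        rw [map_sub, hΦσ]
    intro x hx
    obtain ⟨a, ha, hax⟩ := hle (AddSubgroup.mem_map_of_mem Φ hx)
    -- injectivity on `p`-torsion
    have hxa : x = a := by
      funext i
      have h1 : p • (x i - a i) = 0 := by
        rw [nsmul_sub, (hB x hx i).2, (hB a (hAB ha) i).2, sub_zero]
      have h2 : t3pPull N e (x i - a i) = 0 := by
        rw [map_sub, ← hΦapp, ← hΦapp, hax, sub_self]
      have h3 := t3pPull_eq_zero_of_torsion N e hp0 (x i - a i) h1 h2
      exact sub_eq_zero.mp h3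
    rw [hxa]
    exact ha

end Level

/-- level lowering in the form `N' e p → N' p` -/
theorem s33w_gamma_of_level {p : ℕ} (hp0 : p ≠ 0) (N' e : ℕ) [NeZero e] [NeZero (N' * p)]
    [NeZero (N' * e * p)] (hΓ : S33Gamma p (N' * e * p)) : S33Gamma p (N' * p) := by
  haveI : NeZero (N' * p * e) := ⟨Nat.mul_ne_zero (NeZero.ne _) (NeZero.ne e)⟩
  exact s33w_gamma_level (N' * p) e hp0 (s33w_gamma_cast (by ring) hΓ)

/-- **reduction to the good levels**: for `p` odd it suffices to prove the GAMMA export at the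
levels `N'' p` with `4 ∣ N''` and `p ∤ N''` -/
theorem s33w_gamma_of_good {p : ℕ} (hp : p.Prime) (hp2 : p ≠ 2)
    (hgood : ∀ (N'' : ℕ) [NeZero N''] [NeZero (N'' * p)], 4 ∣ N'' → ¬ p ∣ N'' →
      S33Gamma p (N'' * p))
    (N : ℕ) [NeZero N] (hN : p ∣ N ∧ ¬ p ^ 2 ∣ N) : S33Gamma p N := by
  obtain ⟨N', hN'⟩ := hN.1
  have hN0 : N ≠ 0 := NeZero.ne N
  have hN'0 : N' ≠ 0 := by
    rintro rfl
    exact hN0 (by rw [hN', mul_zero])
  have hpN' : ¬ p ∣ N' := by
    rintro ⟨c, rfl⟩
    exact hN.2 ⟨c, by rw [hN']; ring⟩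
  haveI : NeZero (N' * 4) := ⟨by omega⟩
  haveI : NeZero (N' * 4 * p) := ⟨Nat.mul_ne_zero (by omega) hp.ne_zero⟩
  haveI : NeZero (4 : ℕ) := ⟨by norm_num⟩
  haveI : NeZero (N * 4) := ⟨by omega⟩
  have h4 : ¬ p ∣ N' * 4 := by
    intro h
    rcases (Nat.Prime.dvd_mul hp).mp h with h | h
    · exact hpN' h
    · have h4 : p ∣ 2 ^ 2 := by norm_num; exact h
      exact hp2 ((Nat.prime_dvd_prime_iff_eq hp Nat.prime_two).mp (hp.dvd_of_dvd_pow h4))
  have h1 := hgood (N' * 4) (Dvd.intro_left N' rfl) h4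
  have h2 : S33Gamma p (N * 4) := s33w_gamma_cast (by rw [hN']; ring) h1
  exact s33w_gamma_level N 4 hp.ne_zero h2

end Fermat.Agent.S33W
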