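/-
S33 wiring (helper4), part 5: **the GAMMA export from a connected function model of `C[p]`**, and the
function model from a one-cluster chart.

`𝔓 : FFPlace`, `N'` prime to `𝔓.p`, `J = J₀(N' 𝔓.p)`, `C = s33gC 𝔓 N' h` (helper6's formal part).

* `s33wCp 𝔓 N' h` : `C[p] = C ⊓ J[p]`, a finite subgroup stable under the inertia group
  (`s33w_Cp_finite`, `s33w_Cp_smul_mem`);
* `s33wActC` : the action of `G_ℚ` on `C[p]` (the restriction of the Galois action for `σ` in the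
  inertia group, the identity otherwise);
* `S33wModel 𝔓 N' h` : there is a connected function model `M : FFModel 𝔓 ↥C[p] s33wActC`;
* `s33w_gamma_of_model` : `S33Gamma 𝔓.p (N' * 𝔓.p)`-clauses from `S33wModel` ((F12) is helper6's
  `s33g_F12`, (F3) is helper1's `s33c_F3_of_model`);
* `s33w_gamma_of_models` : `S33Gamma p N` for all `N` with `p ∥ N` (`p` odd) from `S33wModel` at the
  good levels;
* `s33w_model_of_chart` : `S33wModel` from an inertia-invariant one-cluster chart on `C[p]`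
  (helper8's `s33x_exists_model`).
-/
import Mathlib
import Fermat.Agent.Lib.S33.Wire.Level
import Fermat.Agent.Lib.S33.F12.Sub
import Fermat.Agent.Lib.S33.Conn.Prod
import Fermat.Agent.Lib.S33.Key.EndN
import Fermat.Agent.Lib.Alpha.Fin.Finite

set_option autoImplicit false
set_option linter.unusedSectionVars false
set_option linter.unusedVariables false
set_option linter.style.haveILetI false
set_option synthInstance.maxHeartbeats 400000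

namespace Fermat.Agent.S33W

open AlgebraicCurve ModularCurve Fermat.Agent.T3 Fermat.Agent.TW Fermat.Agent.S33
  Fermat.Agent.S33C Fermat.Agent.Alpha Fermat.Agent.T2 Fermat.Agent.CurveP Fermat.Agent.Curve

local notation "Qb" => AlgebraicClosure ℚ
local notation "GQ" => (AlgebraicClosure ℚ ≃ₐ[ℚ] AlgebraicClosure ℚ)

noncomputable section

attribute [local instance] s33g_neZero

section Cp

variable (𝔓 : FFPlace) (N' : ℕ) [NeZero N'] (h : ¬ 𝔓.p ∣ N')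

/-- the `p`-torsion of the formal part -/
def s33wCp : AddSubgroup (JZero (N' * 𝔓.p)) where
  carrier := {x | x ∈ s33gC 𝔓 N' h ∧ 𝔓.p • x = 0}
  zero_mem' := ⟨(s33gC 𝔓 N' h).zero_mem, nsmul_zero _⟩
  add_mem' := by
    rintro x y ⟨hx, hx'⟩ ⟨hy, hy'⟩
    exact ⟨(s33gC 𝔓 N' h).add_mem hx hy, by rw [nsmul_add, hx', hy', add_zero]⟩
  neg_mem' := by
    rintro x ⟨hx, hx'⟩
    exact ⟨(s33gC 𝔓 N' h).neg_mem hx, by rw [neg_nsmul, hx', neg_zero]⟩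

theorem mem_s33wCp (x : JZero (N' * 𝔓.p)) :
    x ∈ s33wCp 𝔓 N' h ↔ x ∈ s33gC 𝔓 N' h ∧ 𝔓.p • x = 0 := Iff.rfl

/-- `C[p]` is finite -/
theorem s33w_Cp_finite : Finite ↥(s33wCp 𝔓 N' h) := by
  haveI := alpf_finite (N' * 𝔓.p) 𝔓.p 𝔓.hp.ne_zero
  let f : ↥(s33wCp 𝔓 N' h) → ↥(Submodule.torsionBy ℤ (JZero (N' * 𝔓.p)) (𝔓.p : ℤ)) :=
    fun x => ⟨(x : JZero (N' * 𝔓.p)), by
      rw [Submodule.mem_torsionBy_iff, natCast_zsmul]
      exact x.2.2⟩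
  refine Finite.of_injective f ?_
  intro x y hxy
  exact Subtype.ext (congrArg (fun z : ↥(Submodule.torsionBy ℤ (JZero (N' * 𝔓.p)) (𝔓.p : ℤ)) =>
    (z : JZero (N' * 𝔓.p))) hxy)

/-- `C[p]` is stable under the inertia group -/
theorem s33w_Cp_smul_mem {σ : GQ} (hσ : σ ∈ 𝔓.I) {x : JZero (N' * 𝔓.p)}
    (hx : x ∈ s33wCp 𝔓 N' h) : σ • x ∈ s33wCp 𝔓 N' h := by
  obtain ⟨hx1, hx2⟩ := hx
  refine ⟨?_, ?_⟩
  · have h1 := s33g_F12 𝔓 N' h σ hσ 1 x (by rw [pow_one]; exact hx2)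
    have h2 := (s33gC 𝔓 N' h).add_mem h1 hx1
    rwa [sub_add_cancel] at h2
  · have h3 : 𝔓.p • (σ • x) = σ • (𝔓.p • x) :=
      (map_nsmul (DistribMulAction.toAddMonoidHom (JZero (N' * 𝔓.p)) σ) 𝔓.p x).symm
    rw [h3, hx2]
    exact smul_zero (A := JZero (N' * 𝔓.p)) σ

open Classical in
/-- the action of `G_ℚ` on `C[p]`: the Galois action for `σ` in the inertia group (the identity
otherwise) -/
def s33wActC (σ : GQ) : ↥(s33wCp 𝔓 N' h) →+ ↥(s33wCp 𝔓 N' h) :=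
  if hσ : σ ∈ 𝔓.I then
    { toFun := fun x => ⟨σ • (x : JZero (N' * 𝔓.p)), s33w_Cp_smul_mem 𝔓 N' h hσ x.2⟩
      map_zero' := Subtype.ext (smul_zero σ)
      map_add' := fun x y => Subtype.ext (smul_add σ (x : JZero (N' * 𝔓.p)) y) }
  else AddMonoidHom.id _

theorem s33wActC_coe {σ : GQ} (hσ : σ ∈ 𝔓.I) (x : ↥(s33wCp 𝔓 N' h)) :
    ((s33wActC 𝔓 N' h σ x : ↥(s33wCp 𝔓 N' h)) : JZero (N' * 𝔓.p)) =
      σ • (x : JZero (N' * 𝔓.p)) := by
  unfold s33wActC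
  rw [dif_pos hσ]
  rfl

/-- **the model statement**: a connected function model of `C[p]` -/
def S33wModel : Prop :=
  ∃ M : FFModel 𝔓 ↥(s33wCp 𝔓 N' h) (s33wActC 𝔓 N' h), ∀ y, M.OrdGT y 0

/-- **the two clauses of the GAMMA export at the place `𝔓`** from a connected model of `C[p]` -/
theorem s33w_gamma_of_model (hp2 : 2 < 𝔓.p) (hM : S33wModel 𝔓 N' h) :
    ∃ C : AddSubgroup (JZero (N' * 𝔓.p)),
      (∀ σ ∈ 𝔓.I, ∀ (k : ℕ) (x : JZero (N' * 𝔓.p)), 𝔓.p ^ k • x = 0 → σ • x - x ∈ C) ∧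
      (∀ (d : ℕ) (A B : AddSubgroup (Fin d → JZero (N' * 𝔓.p))), A ≤ B →
        (∀ x ∈ B, ∀ i, x i ∈ C ∧ 𝔓.p • x i = 0) → (∀ σ ∈ 𝔓.I, ∀ x ∈ A, σ • x ∈ A) →
        (∀ σ ∈ 𝔓.I, ∀ x ∈ B, σ • x - x ∈ A) → B ≤ A) := by
  obtain ⟨M, hM⟩ := hM
  refine ⟨s33gC 𝔓 N' h, fun σ hσ k x hx => s33g_F12 𝔓 N' h σ hσ k x hx, ?_⟩
  intro d A B hAB hB _ hBA
  haveI := s33w_Cp_finite 𝔓 N' h
  exact s33c_F3_of_model (s33wCp 𝔓 N' h) (s33wActC 𝔓 N' h)
    (fun σ hσ y => s33wActC_coe 𝔓 N' h hσ y) M hM hp2 d A B hAB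
    (fun x hx i => hB x hx i) hBA

end Cp

/-- **the GAMMA export at the level `N' p`** from connected models of `C[p]` at all places over
`p` -/
theorem s33w_gamma_of_model_level {p : ℕ} (hp : p.Prime) (hp2 : p ≠ 2) (N' : ℕ) [NeZero N']
    [NeZero (N' * p)]
    (hM : ∀ (𝔓 : FFPlace) (h : ¬ 𝔓.p ∣ N'), 𝔓.p = p → S33wModel 𝔓 N' h) (hpN' : ¬ p ∣ N') :
    S33Gamma p (N' * p) := by
  intro 𝔓 h𝔓
  subst h𝔓
  have h2 : 2 < 𝔓.p := by
    have := hp.two_le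
    omega
  exact s33w_gamma_of_model 𝔓 N' hpN' h2 (hM 𝔓 hpN' rfl)

/-- **the GAMMA export for all levels `N` with `p ∥ N`** (`p` odd) from connected models of `C[p]`
at the good levels -/
theorem s33w_gamma_of_models {p : ℕ} (hp : p.Prime) (hp2 : p ≠ 2)
    (hM : ∀ (𝔓 : FFPlace) (N' : ℕ) [NeZero N'] (h : ¬ 𝔓.p ∣ N'), 𝔓.p = p → 4 ∣ N' →
      S33wModel 𝔓 N' h)
    (N : ℕ) [NeZero N] (hN : p ∣ N ∧ ¬ p ^ 2 ∣ N) : S33Gamma p N :=
  s33w_gamma_of_good hp hp2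
    (fun N'' _ _ h4 hpN'' =>
      s33w_gamma_of_model_level hp hp2 N'' (fun 𝔓 h h𝔓 => hM 𝔓 N'' h h𝔓 h4) hpN'')
    N hN

section Chart

variable (𝔓 : FFPlace) (N' : ℕ) [NeZero N'] (h : ¬ 𝔓.p ∣ N')
variable {k Fb : Type} [Field k] [CommRing Fb] [Nontrivial Fb] [Algebra k Fb]

/-- **the connected model of `C[p]` from an inertia-invariant one-cluster chart** -/
theorem s33w_model_of_chart {d : T2Base Qb ↥(modularFunctionFieldBar (N' * 𝔓.p)) k Fb}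
    (hdA : d.A = 𝔓.P) {x : ↥(modularFunctionFieldBar (N' * 𝔓.p))}
    (hx : IsFunctionFieldGen Qb ↥(modularFunctionFieldBar (N' * 𝔓.p)) x)
    [Algebra.IsSeparable (IntermediateField.adjoin Qb {x}) ↥(modularFunctionFieldBar (N' * 𝔓.p))]
    (ch : S33xChart d ↥(s33wCp 𝔓 N' h))
    (hc : ∀ σ ∈ 𝔓.I, ∀ i s, σ ((ch.c i s : ↥d.A) : Qb) = ((ch.c i s : ↥d.A) : Qb))
    (hB : ∀ σ ∈ 𝔓.I, arithmeticGalois (modularFunctionFieldFull (N' * 𝔓.p)) σ • ch.B = ch.B)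
    (he : ∀ σ ∈ 𝔓.I, ∀ j,
      arithmeticGalois (modularFunctionFieldFull (N' * 𝔓.p)) σ • ch.Fr.e j = ch.Fr.e j)
    (hD : ∀ σ ∈ 𝔓.I, ∀ v w : ↥(s33wCp 𝔓 N' h),
      (w : JZero (N' * 𝔓.p)) = σ • (v : JZero (N' * 𝔓.p)) →
      arithmeticGalois (modularFunctionFieldFull (N' * 𝔓.p)) σ • ch.D v = ch.D w) :
    S33wModel 𝔓 N' h := by
  haveI := s33w_Cp_finite 𝔓 N' h
  refine s33x_exists_model hx 𝔓 hdA (s33wActC 𝔓 N' h) ch hc ?_
  intro σ hσ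
  refine ⟨arithmeticGalois (modularFunctionFieldFull (N' * 𝔓.p)) σ, fun a => rfl, hB σ hσ,
    he σ hσ, fun v => ?_⟩
  exact hD σ hσ v (s33wActC 𝔓 N' h σ v) (s33wActC_coe 𝔓 N' h hσ v)

end Chart

end

end Fermat.Agent.S33W
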