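/-
S33 wiring (helper4), part 7: **the hypothesis `hbr` of `s33w_model_of_data` from the BRIDGE**.

For `v ∈ C[p]` helper6's `s33g_exists_kummer_p` gives a unit `t ≡ (1, 1)` of the function field with
`p ∣ div t` and `v = [div t / p]`.  With `X := div t / p` the two clauses of `hbr` are the BRIDGE
statement for `(X, t)` and for `(-X, t⁻¹)`.

* `s33w_hbr` : `hbr` from (i) `hcong`: the elements of `s33gCong` are elements of `𝒪` with residue `1`
  (the dictionary between helper6's congruence subgroup and the two-valuation base `d`), and (ii)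
  `hbridge`: the BRIDGE for the two divisors `E0` and `B - E0`.
-/
import Mathlib
import Fermat.Agent.Lib.S33.Wire.Gamma
import Fermat.Agent.Lib.S33.F12.Tors

set_option autoImplicit false
set_option linter.unusedSectionVars false
set_option linter.unusedVariables false
set_option linter.style.haveILetI false
set_option synthInstance.maxHeartbeats 400000

namespace Fermat.Agent.S33W

open AlgebraicCurve ModularCurve Fermat.Agent.T3 Fermat.Agent.TW Fermat.Agent.S33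
  Fermat.Agent.Alpha Fermat.Agent.T2 Fermat.Agent.Curve RRAux

local notation "Qb" => AlgebraicClosure ℚ
local notation "GQ" => (AlgebraicClosure ℚ ≃ₐ[ℚ] AlgebraicClosure ℚ)

noncomputable section

attribute [local instance] s33g_neZero

variable (𝔓 : FFPlace) (N' : ℕ) [NeZero N'] (h : ¬ 𝔓.p ∣ N')
variable {k Fb : Type} [Field k] [CommRing Fb] [Algebra k Fb]

/-- **`hbr` from the BRIDGE** -/
theorem s33w_hbr (d : T2Base Qb ↥(modularFunctionFieldBar (N' * 𝔓.p)) k Fb)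
    (hcong : ∀ t : (↥(modularFunctionFieldBar (N' * 𝔓.p)))ˣ, t ∈ s33gCong 𝔓 N' h →
      ∃ ht : (t : ↥(modularFunctionFieldBar (N' * 𝔓.p))) ∈ d.Ov,
        d.res ⟨(t : ↥(modularFunctionFieldBar (N' * 𝔓.p))), ht⟩ = 1)
    (B E0 : Divisor Qb ↥(modularFunctionFieldBar (N' * 𝔓.p)))
    (hbridge : ∀ (X : Divisor Qb ↥(modularFunctionFieldBar (N' * 𝔓.p)))
      (w : ↥(modularFunctionFieldBar (N' * 𝔓.p))), w ≠ 0 →
      (∀ P : Place Qb ↥(modularFunctionFieldBar (N' * 𝔓.p)), P.ord w = ((𝔓.p : ℤ) • X) P) →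
      Divisor.degree X = 0 → ∀ hwO : w ∈ d.Ov, w⁻¹ ∈ d.Ov → d.res ⟨w, hwO⟩ = 1 →
        d.resBall (riemannRochSpace (E0 - X)) ≤ d.resBall (riemannRochSpace E0) ∧
        d.resBall (riemannRochSpace (B - E0 - X)) = d.resBall (riemannRochSpace (B - E0)))
    (v : ↥(s33wCp 𝔓 N' h)) :
    ∃ X : Divisor.degZero (K := Qb) (F := ↥(modularFunctionFieldBar (N' * 𝔓.p))),
      Pic0.mk X = (v : JZero (N' * 𝔓.p)) ∧
      d.resBall (riemannRochSpace
        ((X : Divisor Qb ↥(modularFunctionFieldBar (N' * 𝔓.p))) + E0)) ≤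
        d.resBall (riemannRochSpace E0) ∧
      d.resBall (riemannRochSpace
        (B - E0 - (X : Divisor Qb ↥(modularFunctionFieldBar (N' * 𝔓.p))))) =
        d.resBall (riemannRochSpace (B - E0)) := by
  obtain ⟨t, ht, htc, hvt⟩ := s33g_exists_kummer_p 𝔓 N' h (v : JZero (N' * 𝔓.p)) v.2.1 v.2.2
  have hp0 : 𝔓.p ≠ 0 := 𝔓.hp.ne_zero
  -- the divisor `X = div t / p`
  have hXdeg : Divisor.degree (alpfDivQuot (K := Qb) 𝔓.p t) = 0 := alpfDivQuot_degree hp0 ht
  have hXord : ∀ P : Place Qb ↥(modularFunctionFieldBar (N' * 𝔓.p)),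
      P.ord (t : ↥(modularFunctionFieldBar (N' * 𝔓.p))) =
        ((𝔓.p : ℤ) • alpfDivQuot (K := Qb) 𝔓.p t) P := by
    intro P
    rw [alpf_smul_divQuot ht, alpfDiv_apply]
  -- the dictionary for `t` and `t⁻¹`
  obtain ⟨htO, htres⟩ := hcong t htc
  obtain ⟨htO', htres'⟩ := hcong t⁻¹ ((s33gCong 𝔓 N' h).inv_mem htc)
  rw [Units.val_inv_eq_inv_val] at htO'
  have htinv : ((t⁻¹ : (↥(modularFunctionFieldBar (N' * 𝔓.p)))ˣ) :
      ↥(modularFunctionFieldBar (N' * 𝔓.p))) = (t : ↥(modularFunctionFieldBar (N' * 𝔓.p)))⁻¹ :=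
    Units.val_inv_eq_inv_val t
  have h1 := hbridge (alpfDivQuot (K := Qb) 𝔓.p t) (t : ↥(modularFunctionFieldBar (N' * 𝔓.p)))
    t.ne_zero hXord hXdeg htO htO' htres
  have h2 := hbridge (-alpfDivQuot (K := Qb) 𝔓.p t)
    (t : ↥(modularFunctionFieldBar (N' * 𝔓.p)))⁻¹ (inv_ne_zero t.ne_zero)
    (fun P => by
      rw [Place.ord_inv, hXord P, smul_neg]
      rfl)
    (by rw [map_neg, hXdeg, neg_zero]) htO' (by rw [inv_inv]; exact htO)
    (by
      have h3 : (⟨(t : ↥(modularFunctionFieldBar (N' * 𝔓.p)))⁻¹, htO'⟩ : ↥d.Ov) =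
          ⟨((t⁻¹ : (↥(modularFunctionFieldBar (N' * 𝔓.p)))ˣ) :
            ↥(modularFunctionFieldBar (N' * 𝔓.p))), by rw [htinv]; exact htO'⟩ :=
        Subtype.ext htinv.symm
      rw [h3]
      exact htres')
  refine ⟨⟨alpfDivQuot (K := Qb) 𝔓.p t, hXdeg⟩, hvt.symm, ?_, h1.2⟩
  have h4 : alpfDivQuot (K := Qb) 𝔓.p t + E0 = E0 - -alpfDivQuot (K := Qb) 𝔓.p t := by
    rw [sub_neg_eq_add, add_comm]
  show d.resBall (riemannRochSpace (alpfDivQuot (K := Qb) 𝔓.p t + E0)) ≤ _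
  rw [h4]
  exact h2.1

end

end Fermat.Agent.S33W
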