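/-
S33 wiring (helper4), part 6: **the connected model of `C[p]` from the ingredients, in the modular
setting** (`F = ℚ̄(X₀(N' p))`, `V = C[p]`, `ι` the inclusion `C[p] ⊂ J₀(N' p) = Pic⁰(F)`, the action of
`G_ℚ` on functions `arithmeticGalois`): helper8's `s33x_model_of_data` with the formal inputs filled in.
-/
import Mathlib
import Fermat.Agent.Lib.S33.Wire.Gamma
import Fermat.Agent.Lib.S33.Key.ExistsN

set_option autoImplicit false
set_option linter.unusedSectionVars false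
set_option linter.unusedVariables false
set_option linter.style.haveILetI false
set_option synthInstance.maxHeartbeats 400000

namespace Fermat.Agent.S33W

open AlgebraicCurve ModularCurve Fermat.Agent.T3 Fermat.Agent.TW Fermat.Agent.S33
  Fermat.Agent.S33C Fermat.Agent.Alpha Fermat.Agent.T2 Fermat.Agent.CurveP Fermat.Agent.Curve
  RRAux

local notation "Qb" => AlgebraicClosure ℚ
local notation "GQ" => (AlgebraicClosure ℚ ≃ₐ[ℚ] AlgebraicClosure ℚ)

noncomputable section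

attribute [local instance] s33g_neZero

variable (𝔓 : FFPlace) (N' : ℕ) [NeZero N'] (h : ¬ 𝔓.p ∣ N')
variable {k Fb : Type} [Field k] [CommRing Fb] [Nontrivial Fb] [Algebra k Fb]

/-- **the connected model of `C[p]` from the ingredients** (modular setting) -/
theorem s33w_model_of_data {d : T2Base Qb ↥(modularFunctionFieldBar (N' * 𝔓.p)) k Fb}
    (hdA : d.A = 𝔓.P) {x : ↥(modularFunctionFieldBar (N' * 𝔓.p))}
    (hx : IsFunctionFieldGen Qb ↥(modularFunctionFieldBar (N' * 𝔓.p)) x)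
    [Algebra.IsSeparable (IntermediateField.adjoin Qb {x}) ↥(modularFunctionFieldBar (N' * 𝔓.p))]
    (hunit : ∀ f (hf : f ∈ d.Ov), IsUnit (d.res ⟨f, hf⟩) → f⁻¹ ∈ d.Ov)
    (B : Divisor Qb ↥(modularFunctionFieldBar (N' * 𝔓.p))) (n : ℕ)
    (hBdeg : Divisor.degree B = (n : ℤ))
    (hn : 6 * CurveP.genusR Qb ↥(modularFunctionFieldBar (N' * 𝔓.p)) + 2 ≤ n)
    (hBG : ∀ σ ∈ 𝔓.I, arithmeticGalois (modularFunctionFieldFull (N' * 𝔓.p)) σ • B = B)
    (E0 : Divisor Qb ↥(modularFunctionFieldBar (N' * 𝔓.p))) (hE0 : 0 ≤ E0)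
    (hE0deg : Divisor.degree E0 = CurveP.genusR Qb ↥(modularFunctionFieldBar (N' * 𝔓.p)))
    (hE0G : ∀ σ ∈ 𝔓.I, arithmeticGalois (modularFunctionFieldFull (N' * 𝔓.p)) σ • E0 = E0)
    (hone : ∀ t ∈ d.resBall (riemannRochSpace E0), ∃ a : k, t = algebraMap k Fb a)
    (hbr : ∀ v : ↥(s33wCp 𝔓 N' h),
      ∃ X : Divisor.degZero (K := Qb) (F := ↥(modularFunctionFieldBar (N' * 𝔓.p))),
        Pic0.mk X = (v : JZero (N' * 𝔓.p)) ∧
        d.resBall (riemannRochSpace
          ((X : Divisor Qb ↥(modularFunctionFieldBar (N' * 𝔓.p))) + E0)) ≤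
          d.resBall (riemannRochSpace E0) ∧
        d.resBall (riemannRochSpace
          (B - E0 - (X : Divisor Qb ↥(modularFunctionFieldBar (N' * 𝔓.p))))) =
          d.resBall (riemannRochSpace (B - E0)))
    {N : ℕ} (Fr : S33xFrame d N) (hFr : Fr.spanK = riemannRochSpace B)
    (heG : ∀ σ ∈ 𝔓.I, ∀ j,
      arithmeticGalois (modularFunctionFieldFull (N' * 𝔓.p)) σ • Fr.e j = Fr.e j)
    (c : Fin (CurveP.genusR Qb ↥(modularFunctionFieldBar (N' * 𝔓.p))) → Fin N → ↥d.A)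
    (hcG : ∀ σ ∈ 𝔓.I, ∀ i s, σ ((c i s : ↥d.A) : Qb) = ((c i s : ↥d.A) : Qb))
    (hG2a : ∀ γ : Fin (CurveP.genusR Qb ↥(modularFunctionFieldBar (N' * 𝔓.p))) → k,
      (∑ i, γ i • Fr.combB (fun s => d.resA (c i s))) ∈ d.resBall (riemannRochSpace (B - E0)) →
        γ = 0)
    (hG2b : Fr.spanB ≤ d.resBall (riemannRochSpace (B - E0)) ⊔
      Submodule.span k (Set.range fun i => Fr.combB (fun s => d.resA (c i s))))
    (hKprod : d.resBall (riemannRochSpace (B + B - E0 - E0)) ≤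
      d.resBall (riemannRochSpace (B - E0)) * d.resBall (riemannRochSpace (B - E0)))
    (hKhom : ∀ t : Fb, (∀ u ∈ d.resBall (riemannRochSpace (B + B - E0 - E0)),
      t * u ∈ d.resBall (riemannRochSpace (B + B - E0))) → ∃ a : k, t = algebraMap k Fb a)
    (hKcol : ∀ u ∈ d.resBall (riemannRochSpace B),
      (∀ b ∈ d.resBall (riemannRochSpace (B - E0)),
        u * b ∈ d.resBall (riemannRochSpace (B + B - E0 - E0))) →
        u ∈ d.resBall (riemannRochSpace (B - E0)))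
    (hKunit : ∀ {ι' : Type} (f : ι' → Fb),
      Submodule.span k (Set.range f) = d.resBall (riemannRochSpace (B - E0)) →
        ∃ j, IsUnit (f j)) :
    S33wModel 𝔓 N' h := by
  haveI := s33w_Cp_finite 𝔓 N' h
  refine s33x_model_of_data hx 𝔓 hdA (s33wActC 𝔓 N' h) hunit
    (fun σ => arithmeticGalois (modularFunctionFieldFull (N' * 𝔓.p)) σ) (fun σ _ a => rfl)
    B n hBdeg hn hBG E0 hE0 hE0deg hE0G hone (s33wCp 𝔓 N' h).subtype
    (AddSubgroup.subtype_injective _) ?_ hbr Fr hFr heG c hcG hG2a hG2b hKprod hKhom hKcol hKunit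
  intro σ hσ v
  exact s33wActC_coe 𝔓 N' h hσ v

end

end Fermat.Agent.S33W
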