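/-
S33 wiring (helper4), part 8: **the connected model of `C[p]` from the RED inclusions**.

Composition of helper1's `s33h_package` (all closed-fibre inputs from the RED inclusions
`hI`, `hpE` + numerics), `s33w_hbr` (the hypothesis `hbr` from the BRIDGE and helper6's
`s33g_exists_kummer_p`) and `s33w_model_of_data`.  The hypotheses of `s33w_model_of_red` are exactly
the exports of the remaining GAMMA packages:

* BASE (helper9): `d` with `d.A = 𝔓.P`, `hunit`, and the dictionary `hcong` with helper6's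
  congruence subgroup;
* the closed fibre: generators `x₁ x₂` of the two components, the nodal datum `N`, `hconn` (ZAR);
* RED (helper7) / polar divisor (helper2): `I`, `E0`, their reductions, `hI`, `hpE`, numerics,
  invariance under inertia;
* INV (helper5): the inertia-fixed frame `Fr` of `L(n • I)` and complement coordinates `c`.
-/
import Mathlib
import Fermat.Agent.Lib.S33.Wire.Assemble
import Fermat.Agent.Lib.S33.Wire.Bridge
import Fermat.Agent.Lib.S33.Chart.Dict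

set_option autoImplicit false
set_option linter.unusedSectionVars false
set_option linter.unusedVariables false
set_option linter.style.haveILetI false
set_option synthInstance.maxHeartbeats 400000

namespace Fermat.Agent.S33W

open AlgebraicCurve ModularCurve Fermat.Agent.T3 Fermat.Agent.TW Fermat.Agent.S33
  Fermat.Agent.S33C Fermat.Agent.Alpha Fermat.Agent.T2 Fermat.Agent.CurveP Fermat.Agent.Curve
  Fermat.Agent.S33N RRAux

local notation "Qb" => AlgebraicClosure ℚ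
local notation "GQ" => (AlgebraicClosure ℚ ≃ₐ[ℚ] AlgebraicClosure ℚ)

noncomputable section

attribute [local instance] s33g_neZero

variable (𝔓 : FFPlace) (N' : ℕ) [NeZero N'] (h : ¬ 𝔓.p ∣ N')
variable {k F₁ F₂ σ₁ σ₂ : Type} [Field k] [Field F₁] [Field F₂] [Algebra k F₁] [Algebra k F₂]
  [IsAlgClosed k] [Fintype σ₁] [Fintype σ₂] [ExpChar k 𝔓.p]
  {x₁ : F₁} {x₂ : F₂} (hx₁ : IsFunctionFieldGen k F₁ x₁) (hx₂ : IsFunctionFieldGen k F₂ x₂)
  [Algebra.IsSeparable (IntermediateField.adjoin k {x₁}) F₁]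
  [Algebra.IsSeparable (IntermediateField.adjoin k {x₂}) F₂]
  (N : S33nDatum k F₁ F₂ σ₁ σ₂)

include hx₁ hx₂ in
/-- **the connected model of `C[p]` from the RED inclusions** -/
theorem s33w_model_of_red {d : T2Base Qb ↥(modularFunctionFieldBar (N' * 𝔓.p)) k (F₁ × F₂)}
    (hdA : d.A = 𝔓.P) {x : ↥(modularFunctionFieldBar (N' * 𝔓.p))}
    (hx : IsFunctionFieldGen Qb ↥(modularFunctionFieldBar (N' * 𝔓.p)) x)
    [Algebra.IsSeparable (IntermediateField.adjoin Qb {x}) ↥(modularFunctionFieldBar (N' * 𝔓.p))]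
    (hunit : ∀ f (hf : f ∈ d.Ov), IsUnit (d.res ⟨f, hf⟩) → f⁻¹ ∈ d.Ov)
    (hcong : ∀ t : (↥(modularFunctionFieldBar (N' * 𝔓.p)))ˣ, t ∈ s33gCong 𝔓 N' h →
      ∃ ht : (t : ↥(modularFunctionFieldBar (N' * 𝔓.p))) ∈ d.Ov,
        d.res ⟨(t : ↥(modularFunctionFieldBar (N' * 𝔓.p))), ht⟩ = 1)
    (hconn : ∀ c₁ c₂ : k, Sum.elim (fun _ : σ₁ => c₁) (fun _ : σ₂ => c₂) ∈ N.Δ → c₁ = c₂)
    {I E0 : Divisor Qb ↥(modularFunctionFieldBar (N' * 𝔓.p))}
    {I₁ E₁ : Divisor k F₁} {I₂ E₂ : Divisor k F₂}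
    (hIoff : N.Off I₁ I₂) (hEoff : N.Off E₁ E₂) (hE0 : 0 ≤ E0) (hE₁ : 0 ≤ E₁) (hE₂ : 0 ≤ E₂)
    (hell : Module.finrank k ↥(s33nL N E₁ E₂) = 1)
    (hdegI : Divisor.degree I = Divisor.degree I₁ + Divisor.degree I₂)
    (hdegE : Divisor.degree E0 = Divisor.degree E₁ + Divisor.degree E₂)
    (hg : (CurveP.genusR Qb ↥(modularFunctionFieldBar (N' * 𝔓.p)) : ℤ) = s33nPa N)
    (hE0deg : Divisor.degree E0 = CurveP.genusR Qb ↥(modularFunctionFieldBar (N' * 𝔓.p)))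
    (hI : ∀ n j : ℕ, d.resBall (riemannRochSpace (n • I - j • E0)) ≤
      s33nL N (n • I₁ - j • E₁) (n • I₂ - j • E₂))
    (hpE : d.resBall (riemannRochSpace (𝔓.p • E0)) ≤ s33nL N (𝔓.p • E₁) (𝔓.p • E₂))
    (hIG : ∀ σ ∈ 𝔓.I, arithmeticGalois (modularFunctionFieldFull (N' * 𝔓.p)) σ • I = I)
    (hE0G : ∀ σ ∈ 𝔓.I, arithmeticGalois (modularFunctionFieldFull (N' * 𝔓.p)) σ • E0 = E0)
    (n : ℕ) (m : ℕ) (hm : Divisor.degree (n • I) = (m : ℤ))
    (hmg : 6 * CurveP.genusR Qb ↥(modularFunctionFieldBar (N' * 𝔓.p)) + 2 ≤ m)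
    (hn₁ : 4 * (CurveP.genusR k F₁ : ℤ) + 2 * Fintype.card σ₁ ≤
      n * Divisor.degree I₁ - Divisor.degree E₁)
    (hn₂ : 4 * (CurveP.genusR k F₂ : ℤ) + 2 * Fintype.card σ₂ ≤
      n * Divisor.degree I₂ - Divisor.degree E₂)
    {M : ℕ} (Fr : S33xFrame d M) (hFr : Fr.spanK = riemannRochSpace (n • I))
    (heG : ∀ σ ∈ 𝔓.I, ∀ j,
      arithmeticGalois (modularFunctionFieldFull (N' * 𝔓.p)) σ • Fr.e j = Fr.e j)
    (c : Fin (CurveP.genusR Qb ↥(modularFunctionFieldBar (N' * 𝔓.p))) → Fin M → ↥d.A)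
    (hcG : ∀ σ ∈ 𝔓.I, ∀ i s, σ ((c i s : ↥d.A) : Qb) = ((c i s : ↥d.A) : Qb))
    (hG2a : ∀ γ : Fin (CurveP.genusR Qb ↥(modularFunctionFieldBar (N' * 𝔓.p))) → k,
      (∑ i, γ i • Fr.combB (fun s => d.resA (c i s))) ∈
        d.resBall (riemannRochSpace (n • I - E0)) → γ = 0)
    (hG2b : Fr.spanB ≤ d.resBall (riemannRochSpace (n • I - E0)) ⊔
      Submodule.span k (Set.range fun i => Fr.combB (fun s => d.resA (c i s)))) :
    S33wModel 𝔓 N' h := by
  obtain ⟨hKprod, hKhom, hKcol, hKunit, hone, hbridge⟩ :=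
    s33h_package hx₁ hx₂ N hx d 𝔓.p hconn hIoff hEoff hE0 hE₁ hE₂ hell hdegI hdegE hg hI hpE n
      hn₁ hn₂
  have hbr := s33w_hbr 𝔓 N' h d hcong (n • I) E0 hbridge
  have hBG : ∀ σ ∈ 𝔓.I,
      arithmeticGalois (modularFunctionFieldFull (N' * 𝔓.p)) σ • (n • I) = n • I := by
    intro σ hσ
    rw [smul_comm, hIG σ hσ]
  exact s33w_model_of_data 𝔓 N' h hdA hx hunit (n • I) m hm hmg hBG E0 hE0 hE0deg hE0G hone hbr
    Fr hFr heG c hcG hG2a hG2b hKprod hKhom hKcol hKunit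

end

end Fermat.Agent.S33W
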