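/-
S33 wiring (helper4), part 9: **the connected model of `C[p]` from the `T2Setup` of the symmetric
chart at `s33qBase` and the RED inclusions**.

* `s33w_hyp`   : helper7's `S33rdHyp su₂` for a `T2Setup` of `s33qBase 𝔓 N' h` whose chart is the
  symmetric chart `s33biX` with reduction `(ξ, ξ)`;
* `s33w_hidem` : Zariski connectedness (`s33z_idem'` + `s33bi_hconst_chart`);
* `s33w_model_of_setup` : `S33wModel 𝔓 N' h` from such a setup and the ONE statement `hincl` of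
  RED/Incl (instantiated at `G =` the inertia group).  Order of choices: `N := s33rdN`, `S₁ S₂` from
  `hincl`, `(E₁, E₂)` generic (`s33h_exists_generic'`), `E0` from `hincl`, `n` large, the
  inertia-fixed frame `Fr, c` of `L(n • I)` (`s33i_exists_chart_frame`), then `s33w_model_of_red`.
-/
import Mathlib
import Fermat.Agent.Lib.S33.Wire.Red
import Fermat.Agent.Lib.S33.F12.Qb
import Fermat.Agent.Lib.S33.Qb.Unit
import Fermat.Agent.Lib.S33.Base.Chart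
import Fermat.Agent.Lib.S33.Base.Const
import Fermat.Agent.Lib.S33.Sep.Xi
import Fermat.Agent.Lib.S33.Red.Dict
import Fermat.Agent.Lib.S33.Inv.Frame
import Fermat.Agent.Lib.S33.Zar.Conn

set_option autoImplicit false
set_option linter.unusedSectionVars false
set_option linter.unusedVariables false
set_option linter.style.haveILetI false
set_option synthInstance.maxHeartbeats 400000

namespace Fermat.Agent.S33W

open AlgebraicCurve ModularCurve Fermat.Agent.T1 Fermat.Agent.T3 Fermat.Agent.TW Fermat.Agent.S33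
  Fermat.Agent.S33C Fermat.Agent.Alpha Fermat.Agent.T2 Fermat.Agent.CurveP Fermat.Agent.Curve
  Fermat.Agent.S33N Fermat.Agent.S33Q Fermat.Agent.S24Lib RRAux

local notation "Qb" => AlgebraicClosure ℚ
local notation "GQ" => (AlgebraicClosure ℚ ≃ₐ[ℚ] AlgebraicClosure ℚ)

noncomputable section

attribute [local instance] s33g_neZero
attribute [local instance] t2i_dvr t2i_isAlgClosed t2i_charP t2i_fact

variable (𝔓 : FFPlace) (N' : ℕ) [NeZero N'] (h : ¬ 𝔓.p ∣ N')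

/-- the hypotheses `S33rdHyp` at the base `s33qBase` -/
theorem s33w_hyp {σ : Type} [Fintype σ]
    (su₂ : T2Setup (s33qBase 𝔓 N' h) σ) (hsx : su₂.x = s33biX 𝔓 N' h)
    (hsxb : su₂.xb = (t2sfXi (IsLocalRing.ResidueField ↥𝔓.P) 𝔓.p N',
      t2sfXi (IsLocalRing.ResidueField ↥𝔓.P) 𝔓.p N')) : S33rdHyp su₂ := by
  have hN'k : ((N' : ℕ) : IsLocalRing.ResidueField ↥𝔓.P) ≠ 0 := by
    intro h0
    exact h ((CharP.cast_eq_zero_iff (IsLocalRing.ResidueField ↥𝔓.P) 𝔓.p N').mp h0)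
  have hξ := t2sf_bar_isFunctionFieldGen (IsLocalRing.ResidueField ↥𝔓.P) 𝔓.p N'
  have hsep := s33sx_sepb (IsLocalRing.ResidueField ↥𝔓.P) 𝔓.p N' hN'k
  have h1 : su₂.xb.1 = t2sfXi (IsLocalRing.ResidueField ↥𝔓.P) 𝔓.p N' := by rw [hsxb]
  have h2 : su₂.xb.2 = t2sfXi (IsLocalRing.ResidueField ↥𝔓.P) 𝔓.p N' := by rw [hsxb]
  refine ⟨?_, ?_, ?_, ?_, ?_, ?_, s33q_inv_mem 𝔓 N' h⟩
  · rw [hsx]; exact s33biX_gen 𝔓 N' h
  · rw [hsx]; exact s33biX_sep 𝔓 N' h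
  · rw [h1]; exact hξ
  · rw [h1]; exact hsep
  · rw [h2]; exact hξ
  · rw [h2]; exact hsep

/-- Zariski connectedness of the special fibre -/
theorem s33w_hidem {σ : Type} [Fintype σ]
    (su₂ : T2Setup (s33qBase 𝔓 N' h) σ) (hsx : su₂.x = s33biX 𝔓 N' h) :
    ∀ e : ↥(tbBarF 𝔓 N') × ↥(tbBarF 𝔓 N'), e ∈ su₂.Lsing 0 0 → e * e = e → e = 0 ∨ e = 1 := by
  intro e he hee
  refine Fermat.Agent.S33Z.s33z_idem' su₂ ?_ he hee
  rw [hsx]
  exact s33bi_hconst_chart 𝔓 N' h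

set_option maxHeartbeats 1600000 in
/-- **the connected model of `C[p]`** from the `T2Setup` of the symmetric chart at `s33qBase`
and the RED inclusions -/
theorem s33w_model_of_setup {σ : Type} [Fintype σ]
    (su₂ : T2Setup (s33qBase 𝔓 N' h) σ) (hsx : su₂.x = s33biX 𝔓 N' h)
    (hsxb : su₂.xb = (t2sfXi (IsLocalRing.ResidueField ↥𝔓.P) 𝔓.p N',
      t2sfXi (IsLocalRing.ResidueField ↥𝔓.P) 𝔓.p N'))
    (hincl : ∀ hH : S33rdHyp su₂,
      ∃ S₁ S₂ : Set (Place (IsLocalRing.ResidueField ↥𝔓.P) ↥(tbBarF 𝔓 N')),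
        S₁.Finite ∧ S₂.Finite ∧
        ∀ E₁ E₂ : Divisor (IsLocalRing.ResidueField ↥𝔓.P) ↥(tbBarF 𝔓 N'),
          0 ≤ E₁ → 0 ≤ E₂ → (∀ v, E₁ v ≤ 1) → (∀ v, E₂ v ≤ 1) →
          (∀ v ∈ S₁, E₁ v = 0) → (∀ v ∈ S₂, E₂ v = 0) →
          ∃ E0 : Divisor Qb ↥(modularFunctionFieldBar (N' * 𝔓.p)), 0 ≤ E0 ∧
            Divisor.degree E0 = Divisor.degree E₁ + Divisor.degree E₂ ∧
            (∀ σ ∈ 𝔓.I, arithmeticGalois (modularFunctionFieldFull (N' * 𝔓.p)) σ • E0 = E0) ∧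
            (∀ n j : ℕ, (s33qBase 𝔓 N' h).resBall
                (riemannRochSpace (n • s33rdI su₂ hH - j • E0)) ≤
              s33nL (s33rdN su₂ hH) (n • s33rdI₁ su₂ hH - j • E₁)
                (n • s33rdI₂ su₂ hH - j • E₂)) ∧
            (∀ j : ℕ, (s33qBase 𝔓 N' h).resBall (riemannRochSpace (j • E0)) ≤
              s33nL (s33rdN su₂ hH) (j • E₁) (j • E₂))) :
    S33wModel 𝔓 N' h := by
  classical
  haveI : ExpChar (IsLocalRing.ResidueField ↥𝔓.P) 𝔓.p := inferInstance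
  have hH : S33rdHyp su₂ := s33w_hyp 𝔓 N' h su₂ hsx hsxb
  haveI := hH.sep
  haveI := hH.sep₁
  haveI := hH.sep₂
  have hconn := s33rd_hconn su₂ hH (s33w_hidem 𝔓 N' h su₂ hsx)
  obtain ⟨S₁, S₂, hS₁, hS₂, hE⟩ := hincl hH
  obtain ⟨E₁, E₂, hE₁, hE₂, hE₁1, hE₂1, hE₁S, hE₂S, hEoff, hEdeg, hell⟩ :=
    s33h_exists_generic' hH.gen₁ hH.gen₂ (s33rdN su₂ hH) hconn hS₁ hS₂
  obtain ⟨E0, hE0, hE0deg, hE0G, hI, hpole⟩ := hE E₁ E₂ hE₁ hE₂ hE₁1 hE₂1 hE₁S hE₂S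
  have hg := s33rd_pa su₂ hH
  have hIeq : s33rdI su₂ hH = s33biI 𝔓 N' h := s33biI_eq' 𝔓 N' h hH.gen hsx
  rw [hIeq] at hI
  have hdegI := s33rd_degI su₂ hH
  rw [hIeq] at hdegI
  -- degrees
  have hd₁ : 0 < Divisor.degree (s33rdI₁ su₂ hH) := s33bi_degree_pos hH.gen₁
  have hd₂ : 0 < Divisor.degree (s33rdI₂ su₂ hH) := s33bi_degree_pos hH.gen₂
  have hdE₁ : 0 ≤ Divisor.degree E₁ := Fermat.Agent.CurveP.RRAux.degree_nonneg_of_nonneg hE₁
  have hdE₂ : 0 ≤ Divisor.degree E₂ := Fermat.Agent.CurveP.RRAux.degree_nonneg_of_nonneg hE₂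
  have hE0g : Divisor.degree E0 =
      CurveP.genusR Qb ↥(modularFunctionFieldBar (N' * 𝔓.p)) := by
    rw [hE0deg, hEdeg, hg]
  haveI := (s33biX_gen 𝔓 N' h).finite
  have hD : 0 < Module.finrank ↥(IntermediateField.adjoin Qb {s33biX 𝔓 N' h})
      ↥(modularFunctionFieldBar (N' * 𝔓.p)) := Module.finrank_pos
  -- the choice of `n`
  set g : ℕ := CurveP.genusR Qb ↥(modularFunctionFieldBar (N' * 𝔓.p)) with hgdef
  set g₁ : ℕ := CurveP.genusR (IsLocalRing.ResidueField ↥𝔓.P) ↥(tbBarF 𝔓 N') with hg₁def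
  set n : ℕ := 6 * g + 2 + 4 * g₁ + 2 * Fintype.card ↥(s33rdNodes su₂ hH 0) +
    2 * Fintype.card ↥(s33rdNodes su₂ hH 1) + g with hn
  have hmg : 6 * g + 2 ≤ n * Module.finrank ↥(IntermediateField.adjoin Qb {s33biX 𝔓 N' h})
      ↥(modularFunctionFieldBar (N' * 𝔓.p)) := by
    calc 6 * g + 2 ≤ n * 1 := by omega
      _ ≤ _ := Nat.mul_le_mul_left n hD
  have hgE : Divisor.degree E₁ + Divisor.degree E₂ = (g : ℤ) := by
    rw [hEdeg, ← hg]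
  have hn₁ : 4 * (g₁ : ℤ) + 2 * Fintype.card ↥(s33rdNodes su₂ hH 0) ≤
      n * Divisor.degree (s33rdI₁ su₂ hH) - Divisor.degree E₁ := by
    have h1 : (n : ℤ) * 1 ≤ n * Divisor.degree (s33rdI₁ su₂ hH) :=
      mul_le_mul_of_nonneg_left (by omega) (Int.natCast_nonneg n)
    have h2 : (n : ℤ) = 6 * g + 2 + 4 * g₁ + 2 * Fintype.card ↥(s33rdNodes su₂ hH 0) +
        2 * Fintype.card ↥(s33rdNodes su₂ hH 1) + g := by
      rw [hn]; push_cast; ring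
    have h3 : (0 : ℤ) ≤ Fintype.card ↥(s33rdNodes su₂ hH 1) := Int.natCast_nonneg _
    have h4 : (0 : ℤ) ≤ g := Int.natCast_nonneg _
    linarith
  have hn₂ : 4 * (g₁ : ℤ) + 2 * Fintype.card ↥(s33rdNodes su₂ hH 1) ≤
      n * Divisor.degree (s33rdI₂ su₂ hH) - Divisor.degree E₂ := by
    have h1 : (n : ℤ) * 1 ≤ n * Divisor.degree (s33rdI₂ su₂ hH) :=
      mul_le_mul_of_nonneg_left (by omega) (Int.natCast_nonneg n)
    have h2 : (n : ℤ) = 6 * g + 2 + 4 * g₁ + 2 * Fintype.card ↥(s33rdNodes su₂ hH 0) +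
        2 * Fintype.card ↥(s33rdNodes su₂ hH 1) + g := by
      rw [hn]; push_cast; ring
    have h3 : (0 : ℤ) ≤ Fintype.card ↥(s33rdNodes su₂ hH 0) := Int.natCast_nonneg _
    have h4 : (0 : ℤ) ≤ g := Int.natCast_nonneg _
    linarith
  -- the inertia-fixed frame
  have hBdeg : 3 * (g : ℤ) - 1 ≤ Divisor.degree (n • s33biI 𝔓 N' h) := by
    rw [s33bi_degree_nsmul 𝔓 N' h n]
    have : (6 * g + 2 : ℤ) ≤ ((n * Module.finrank ↥(IntermediateField.adjoin Qb {s33biX 𝔓 N' h})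
      ↥(modularFunctionFieldBar (N' * 𝔓.p)) : ℕ) : ℤ) := by exact_mod_cast hmg
    have h4 : (0 : ℤ) ≤ g := Int.natCast_nonneg _
    linarith
  obtain ⟨M, Fr, c, hFr, heG, hcG, hG2a, hG2b⟩ :=
    s33i_exists_chart_frame 𝔓 N' h (s33biX_gen 𝔓 N' h) (n • s33biI 𝔓 N' h) E0
      (fun σ _ => s33bi_smul_nsmul_I 𝔓 N' h σ n) hE0 hE0g hBdeg
  exact s33w_model_of_red 𝔓 N' h hH.gen₁ hH.gen₂ (s33rdN su₂ hH) (d := s33qBase 𝔓 N' h) rfl
    (s33biX_gen 𝔓 N' h) (s33q_inv_mem 𝔓 N' h) (s33g_cong_base 𝔓 N' h) hconn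
    (I := s33biI 𝔓 N' h) (E0 := E0) (s33rdN_off_I_one su₂ hH) hEoff hE0 hE₁ hE₂ hell hdegI
    hE0deg hg hE0g hI (hpole 𝔓.p) (s33bi_hIG 𝔓 N' h) hE0G n _ (s33bi_degree_nsmul 𝔓 N' h n) hmg
    hn₁ hn₂ Fr hFr heG c hcG hG2a hG2b

end

end Fermat.Agent.S33W
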