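/-
S33 wiring (helper4), part 10: **the connected model of `C[p]` from the `T2Setup` of the symmetric
chart at `s33qBase` alone**: `s33w_model_of_setup'` = `s33w_model_of_setup` with the hypothesis
`hincl` discharged by helper7's `s33rd_exists_lift` at `G =` the image of the inertia group `𝔓.I`
under the arithmetic action (`s33i_inert`, `s33i_exists_rep`, `s33bi_smul_X`).
-/
import Mathlib
import Fermat.Agent.Lib.S33.Wire.Setup
import Fermat.Agent.Lib.S33.Red.Incl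

set_option autoImplicit false
set_option linter.unusedSectionVars false
set_option linter.unusedVariables false
set_option linter.style.haveILetI false
set_option synthInstance.maxHeartbeats 400000

namespace Fermat.Agent.S33W

open AlgebraicCurve ModularCurve Fermat.Agent.T1 Fermat.Agent.T3 Fermat.Agent.TW Fermat.Agent.S33
  Fermat.Agent.S33C Fermat.Agent.Alpha Fermat.Agent.T2 Fermat.Agent.CurveP Fermat.Agent.Curve
  Fermat.Agent.S33N Fermat.Agent.S33Q Fermat.Agent.S24Lib RRAux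

local notation "Qb" => AlgebraicClosure ℚ
local notation "GQ" => (AlgebraicClosure ℚ ≃ₐ[ℚ] AlgebraicClosure ℚ)

noncomputable section

attribute [local instance] s33g_neZero
attribute [local instance] t2i_dvr t2i_isAlgClosed t2i_charP t2i_fact

variable (𝔓 : FFPlace) (N' : ℕ) [NeZero N'] (h : ¬ 𝔓.p ∣ N')

set_option maxHeartbeats 1600000 in
/-- **the connected model of `C[p]`** from the `T2Setup` of the symmetric chart at `s33qBase` -/
theorem s33w_model_of_setup' {σ : Type} [Fintype σ]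
    (su₂ : T2Setup (s33qBase 𝔓 N' h) σ) (hsx : su₂.x = s33biX 𝔓 N' h)
    (hsxb : su₂.xb = (t2sfXi (IsLocalRing.ResidueField ↥𝔓.P) 𝔓.p N',
      t2sfXi (IsLocalRing.ResidueField ↥𝔓.P) 𝔓.p N')) :
    S33wModel 𝔓 N' h := by
  refine s33w_model_of_setup 𝔓 N' h su₂ hsx hsxb fun hH => ?_
  set G : Set (SemilinearAut Qb ↥(modularFunctionFieldBar (N' * 𝔓.p))) :=
    {g | ∃ σ ∈ 𝔓.I, g = arithmeticGalois (modularFunctionFieldFull (N' * 𝔓.p)) σ} with hGdef
  have hG : ∀ g ∈ G, S33rdInert (s33qBase 𝔓 N' h) su₂.x g := by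
    rintro g ⟨σ, hσ, rfl⟩
    refine s33i_inert 𝔓 N' h hσ ?_
    rw [hsx]
    exact s33bi_smul_X 𝔓 N' h σ
  have hfix : ∀ c : IsLocalRing.ResidueField ↥𝔓.P, ∃ a : ↥(s33qBase 𝔓 N' h).A,
      (s33qBase 𝔓 N' h).resA a = c ∧
        ∀ g ∈ G, SemilinearAut.baseAut g (a : Qb) = (a : Qb) := by
    intro c
    obtain ⟨a, ha, hac⟩ := s33i_exists_rep 𝔓 c
    refine ⟨a, hac, ?_⟩
    rintro g ⟨σ, hσ, rfl⟩
    exact ha σ hσ
  obtain ⟨S₁, S₂, hS₁, hS₂, hE⟩ := s33rd_exists_lift su₂ hH G hG hfix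
  refine ⟨S₁, S₂, hS₁, hS₂, fun E₁ E₂ hE₁ hE₂ hm₁ hm₂ hv₁ hv₂ => ?_⟩
  obtain ⟨E0, hE0, hdeg, hE0G, -, hI, hpole⟩ := hE E₁ E₂ hE₁ hE₂ hm₁ hm₂ hv₁ hv₂
  exact ⟨E0, hE0, hdeg, fun σ hσ => hE0G _ ⟨σ, hσ, rfl⟩, hI, hpole⟩

end

end Fermat.Agent.S33W
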