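/-
S33 wiring (helper4), part 11: **the `T2Setup` of the symmetric chart over `ℚ̄`** (split of GAMMA-QB
`Qb/Setup`): every field of `T2Setup (s33qBase 𝔓 N' h) σ` except `int1`, `int2`, `fin1` goes up
formally from the `T2Setup` at a DVR level `H` (`t2i_exists_setup_fix_fr`).

* `s33wq_phi_X`, `s33wq_ball_up`, `s33wq_resBall_up` : `Φ_H` maps the unit ball of
  `IntCl(L_H[y])` into the unit ball of `IntCl(ℚ̄[Φ_H y])`, with the same residues;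
* `s33wq_X_mem`, `s33wq_X_inv_mem`, `s33wq_res_X`, `s33wq_res_X_inv`, `s33wq_xb` : `hx`, `hxi`,
  `res x = (ξ, ξ)`;
* `s33wq_sm2`, `s33wq_node`, `s33wq_finLt` : the fields `sm2`, `ev` + `hJ`, `finLt`;
* `s33wq_setup_of_level`, `s33wq_exists_setup` : the assembly, with `int1`, `int2`, `fin1` as
  hypotheses; output `∃ n su, su.x = s33biX ∧ su.xb = (ξ, ξ)` = the input of
  `s33w_model_of_setup'`.
-/
import Mathlib
import Fermat.Agent.Lib.S33.Qb.Unit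
import Fermat.Agent.Lib.S33.Base.Chart
import Fermat.Agent.Lib.T2.Inst.ExportF
import Fermat.Agent.Lib.S33.Inv.Inst

set_option autoImplicit false
set_option linter.unusedSectionVars false
set_option linter.unusedVariables false
set_option linter.style.haveILetI false
set_option synthInstance.maxHeartbeats 400000

namespace Fermat.Agent.S33W

open HahnSeries AlgebraicCurve ModularCurve Fermat.Agent.T1 Fermat.Agent.TW Fermat.Agent.S33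
  Fermat.Agent.T2 Fermat.Agent.S33Q Fermat.Agent.S24Lib Fermat.Agent.S05Lib

local notation "Qb" => AlgebraicClosure ℚ

noncomputable section

attribute [local instance] t2i_dvr t2i_isAlgClosed t2i_charP t2i_fact
attribute [local instance 2000] s33iAlgLev s33iAlgBar s33iAlgQ s33iModLev s33iModBar s33iModQ

variable (𝔓 : FFPlace) (N' : ℕ) [NeZero N'] (h : ¬ 𝔓.p ∣ N')

section Level

variable (H : Subgroup 𝔓.I) [H.FiniteIndex]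

/-- the symmetric chart comes from every level -/
theorem s33wq_phi_X :
    tbPhiF 𝔓 (N' * 𝔓.p) H (t2gaX 𝔓 H N' h (𝔓.p ^ 2)) = s33biX 𝔓 N' h :=
  t2ca_tbPhiF_Xs 𝔓 H N' h

/-- `Φ_H` maps the unit ball of `IntCl(L_H[y])` into the unit ball of `IntCl(ℚ̄[Φ_H y])` -/
theorem s33wq_ball_up {y s : ↥(tbLevF 𝔓 (N' * 𝔓.p) H)}
    (hs : s ∈ (t2iBase2Fix 𝔓 H N' h).ball (t2Int y)) :
    tbPhiF 𝔓 (N' * 𝔓.p) H s ∈
      (s33qBase 𝔓 N' h).ball (t2Int (tbPhiF 𝔓 (N' * 𝔓.p) H y)) :=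
  ⟨(t2d_isIntegral_tbPhiF_iff 𝔓 (N' * 𝔓.p) H y s).mp hs.1, s33q_phi_mem 𝔓 N' h H hs.2⟩

/-- the reductions of the unit balls go up -/
theorem s33wq_resBall_up (y : ↥(tbLevF 𝔓 (N' * 𝔓.p) H)) :
    ((t2iBase2Fix 𝔓 H N' h).resBall (t2Int y) : Set (↥(tbBarF 𝔓 N') × ↥(tbBarF 𝔓 N'))) ⊆
      (s33qBase 𝔓 N' h).resBall (t2Int (tbPhiF 𝔓 (N' * 𝔓.p) H y)) := by
  rintro t ⟨s, hs, rfl⟩
  exact ⟨tbPhiF 𝔓 (N' * 𝔓.p) H s, s33wq_ball_up 𝔓 N' h H hs, s33qRes_phi 𝔓 N' h H hs.2⟩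

end Level

section Fields

variable (H : Subgroup 𝔓.I) [H.FiniteIndex] {σ : Type} [Fintype σ]
  (su : T2Setup (t2iBase2Fix 𝔓 H N' h) σ) (hsx : su.x = t2gaX 𝔓 H N' h (𝔓.p ^ 2))

include su hsx

/-- `x ∈ 𝒪` -/
theorem s33wq_X_mem : s33biX 𝔓 N' h ∈ (s33qBase 𝔓 N' h).Ov := by
  rw [← s33wq_phi_X 𝔓 N' h H, ← hsx]
  exact s33q_phi_mem 𝔓 N' h H su.hx

/-- `x⁻¹ ∈ 𝒪` -/
theorem s33wq_X_inv_mem : (s33biX 𝔓 N' h)⁻¹ ∈ (s33qBase 𝔓 N' h).Ov := by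
  rw [← s33wq_phi_X 𝔓 N' h H, ← hsx, ← map_inv₀]
  exact s33q_phi_mem 𝔓 N' h H su.hxi

/-- the reduction of the chart is the reduction at the level `H` -/
theorem s33wq_res_X :
    (s33qBase 𝔓 N' h).res ⟨s33biX 𝔓 N' h, s33wq_X_mem 𝔓 N' h H su hsx⟩ = su.xb := by
  refine Eq.trans ?_ (s33qRes_phi 𝔓 N' h H su.hx)
  show (s33qBase 𝔓 N' h).res _ = (s33qBase 𝔓 N' h).res _
  congr 1
  apply Subtype.ext
  show s33biX 𝔓 N' h = tbPhiF 𝔓 (N' * 𝔓.p) H su.x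
  rw [hsx, s33wq_phi_X]

theorem s33wq_res_X_inv :
    (s33qBase 𝔓 N' h).res ⟨(s33biX 𝔓 N' h)⁻¹, s33wq_X_inv_mem 𝔓 N' h H su hsx⟩ = su.xib := by
  refine Eq.trans ?_ (s33qRes_phi 𝔓 N' h H su.hxi)
  show (s33qBase 𝔓 N' h).res _ = (s33qBase 𝔓 N' h).res _
  congr 1
  apply Subtype.ext
  show (s33biX 𝔓 N' h)⁻¹ = tbPhiF 𝔓 (N' * 𝔓.p) H su.x⁻¹
  rw [map_inv₀, hsx, s33wq_phi_X]

/-- **(Sm2) over `ℚ̄`**: the chart `x ≠ 0` of the special fibre is normal -/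
theorem s33wq_sm2 (t : ↥(tbBarF 𝔓 N') × ↥(tbBarF 𝔓 N'))
    (ht : IsIntegral ↥(Algebra.adjoin (IsLocalRing.ResidueField ↥𝔓.P)
      {(s33qBase 𝔓 N' h).res ⟨(s33biX 𝔓 N' h)⁻¹, s33wq_X_inv_mem 𝔓 N' h H su hsx⟩}) t) :
    t ∈ (s33qBase 𝔓 N' h).resBall (t2Int (s33biX 𝔓 N' h)⁻¹) := by
  have ht' := t2i_isIntegral_adjoin_of_eq (s33wq_res_X_inv 𝔓 N' h H su hsx) ht
  have h1 := su.sm2 t ht'
  have hΦ : tbPhiF 𝔓 (N' * 𝔓.p) H su.x⁻¹ = (s33biX 𝔓 N' h)⁻¹ := by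
    rw [map_inv₀, hsx, s33wq_phi_X]
  have h2 := s33wq_resBall_up 𝔓 N' h H su.x⁻¹ h1
  rwa [hΦ] at h2

/-- **the node data over `ℚ̄`** -/
theorem s33wq_node :
    ∃ ev : ↥(t2R (k := IsLocalRing.ResidueField ↥𝔓.P) ((s33qBase 𝔓 N' h).res
        ⟨s33biX 𝔓 N' h, s33wq_X_mem 𝔓 N' h H su hsx⟩)) →ₐ[IsLocalRing.ResidueField ↥𝔓.P]
          (σ → IsLocalRing.ResidueField ↥𝔓.P),
      ∀ r, ev r = 0 → (r : ↥(tbBarF 𝔓 N') × ↥(tbBarF 𝔓 N')) ∈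
        (s33qBase 𝔓 N' h).resBall (t2Int (s33biX 𝔓 N' h)) := by
  have key : ∀ (xb' : ↥(tbBarF 𝔓 N') × ↥(tbBarF 𝔓 N')) (hxb : xb' = su.xb),
      ∃ ev : ↥(t2R (k := IsLocalRing.ResidueField ↥𝔓.P) xb') →ₐ[IsLocalRing.ResidueField ↥𝔓.P]
          (σ → IsLocalRing.ResidueField ↥𝔓.P),
        ∀ r, ev r = 0 → (r : ↥(tbBarF 𝔓 N') × ↥(tbBarF 𝔓 N')) ∈
          (s33qBase 𝔓 N' h).resBall (t2Int (s33biX 𝔓 N' h)) := by
    intro xb' hxb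
    subst hxb
    refine ⟨su.ev, fun r hr => ?_⟩
    have hΦ : tbPhiF 𝔓 (N' * 𝔓.p) H su.x = s33biX 𝔓 N' h := by rw [hsx, s33wq_phi_X]
    have h1 := su.hJ r hr
    have h2 := s33wq_resBall_up 𝔓 N' h H su.x h1
    rwa [hΦ] at h2
  exact key _ (s33wq_res_X 𝔓 N' h H su hsx)

/-- finiteness on the special fibre -/
theorem s33wq_finLt (a : ℕ) :
    FiniteDimensional (IsLocalRing.ResidueField ↥𝔓.P)
      ↥(t2Lt (k := IsLocalRing.ResidueField ↥𝔓.P)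
        ((s33qBase 𝔓 N' h).res ⟨s33biX 𝔓 N' h, s33wq_X_mem 𝔓 N' h H su hsx⟩)
        ((s33qBase 𝔓 N' h).res ⟨(s33biX 𝔓 N' h)⁻¹, s33wq_X_inv_mem 𝔓 N' h H su hsx⟩) a) := by
  rw [s33wq_res_X 𝔓 N' h H su hsx, s33wq_res_X_inv 𝔓 N' h H su hsx]
  exact su.finLt a

/-- the reduction of the chart at the level `H` is `(ξ, ξ)` -/
theorem s33wq_xb : su.xb = (t2sfXi (IsLocalRing.ResidueField ↥𝔓.P) 𝔓.p N',
    t2sfXi (IsLocalRing.ResidueField ↥𝔓.P) 𝔓.p N') := by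
  have h1 : su.xb = (t2iBase2Fix 𝔓 H N' h).res ⟨t2gaX 𝔓 H N' h (𝔓.p ^ 2), hsx ▸ su.hx⟩ :=
    (t2iBase2Fix 𝔓 H N' h).res_congr su.hx hsx
  rw [h1]
  refine (t2i_res_Xs (tbFixO 𝔓 H) (tbFixRes 𝔓 H) (tbFixRes_surjective 𝔓 H)
    (t2i_natCast_ne_zero 𝔓 h) (t2iALFix 𝔓 H N' h) (t2iFrobFix 𝔓 N')).trans ?_
  have h2 : t2iXb (IsLocalRing.ResidueField ↥𝔓.P) N' 𝔓.p ^ (𝔓.p + 1) =
      t2sfXi (IsLocalRing.ResidueField ↥𝔓.P) 𝔓.p N' := by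
    rw [t2sfXi_eq, ← sq]
    rfl
  rw [h2]

set_option maxHeartbeats 1000000 in
/-- **assembly of the `T2Setup` over `ℚ̄`** from a `T2Setup` at a level `H` and the three fields
which do not go up formally (`int1`, `int2`, `fin1`) -/
theorem s33wq_setup_of_level
    (hint1 : ∀ (f : ↥(modularFunctionFieldBar (N' * 𝔓.p))) (hf : f ∈ (s33qBase 𝔓 N' h).Ov),
      f ∈ t2Int (K := Qb) (s33biX 𝔓 N' h) →
      IsIntegral ↥(Algebra.adjoin (IsLocalRing.ResidueField ↥𝔓.P)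
        {(s33qBase 𝔓 N' h).res ⟨s33biX 𝔓 N' h, s33wq_X_mem 𝔓 N' h H su hsx⟩})
        ((s33qBase 𝔓 N' h).res ⟨f, hf⟩))
    (hint2 : ∀ (f : ↥(modularFunctionFieldBar (N' * 𝔓.p))) (hf : f ∈ (s33qBase 𝔓 N' h).Ov),
      f ∈ t2Int (K := Qb) (s33biX 𝔓 N' h)⁻¹ →
      IsIntegral ↥(Algebra.adjoin (IsLocalRing.ResidueField ↥𝔓.P)
        {(s33qBase 𝔓 N' h).res ⟨(s33biX 𝔓 N' h)⁻¹, s33wq_X_inv_mem 𝔓 N' h H su hsx⟩})
        ((s33qBase 𝔓 N' h).res ⟨f, hf⟩))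
    (e : ℕ) (hfin1 : T2Fin (s33qBase 𝔓 N' h) (s33biX 𝔓 N' h) e) :
    ∃ su' : T2Setup (s33qBase 𝔓 N' h) σ, su'.x = s33biX 𝔓 N' h ∧
      su'.xb = (t2sfXi (IsLocalRing.ResidueField ↥𝔓.P) 𝔓.p N',
        t2sfXi (IsLocalRing.ResidueField ↥𝔓.P) 𝔓.p N') := by
  obtain ⟨ev, hev⟩ := s33wq_node 𝔓 N' h H su hsx
  have hx0 := s33biX_ne_zero 𝔓 N' h
  have hgen := s33biX_gen 𝔓 N' h
  refine ⟨
    { ℓ := 𝔓.p
      hℓ := 𝔓.hp
      hℓA := 𝔓.hP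
      hℓ0 := Nat.cast_ne_zero.mpr 𝔓.hp.ne_zero
      m := 1
      hm := Nat.coprime_one_left _
      x := s33biX 𝔓 N' h
      hx0 := hx0
      hx := s33wq_X_mem 𝔓 N' h H su hsx
      hxi := s33wq_X_inv_mem 𝔓 N' h H su hsx
      int1 := hint1
      int2 := hint2
      e := e
      fin1 := hfin1
      ex2 := fun f hf => t2_exists_pow_mul_mem_t2Int hx0 hf
      sm2 := s33wq_sm2 𝔓 N' h H su hsx
      exb := fun t ht => t2_isIntegral_inv_pow_mul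
        (t2f_res_mul_inv (s33qBase 𝔓 N' h) hx0 (s33wq_X_mem 𝔓 N' h H su hsx)
          (s33wq_X_inv_mem 𝔓 N' h H su hsx)) ht
      finLt := s33wq_finLt 𝔓 N' h H su hsx
      ev := ev
      hJ := hev
      n := Module.finrank ↥(IntermediateField.adjoin Qb {s33biX 𝔓 N' h})
        ↥(modularFunctionFieldBar (N' * 𝔓.p))
      c := 1 - (CurveP.genusR Qb ↥(modularFunctionFieldBar (N' * 𝔓.p)) : ℤ)
      a0 := 2 * CurveP.genusR Qb ↥(modularFunctionFieldBar (N' * 𝔓.p))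
      finL0 := fun a b => tw_finiteDimensional_tbLbar hgen a b
      dim0 := fun a b hab => by
        haveI := hgen.finite
        have hD : 0 < Module.finrank ↥(IntermediateField.adjoin Qb {s33biX 𝔓 N' h})
            ↥(modularFunctionFieldBar (N' * 𝔓.p)) := Module.finrank_pos
        refine tw_finrank_tbLbar hgen a b ?_
        have h1 : ((2 * CurveP.genusR Qb ↥(modularFunctionFieldBar (N' * 𝔓.p)) : ℕ) : ℤ) ≤
            ((a + b : ℕ) : ℤ) := by exact_mod_cast hab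
        have h2 : ((a + b : ℕ) : ℤ) * 1 ≤ ((a + b : ℕ) : ℤ) *
            (Module.finrank ↥(IntermediateField.adjoin Qb {s33biX 𝔓 N' h})
              ↥(modularFunctionFieldBar (N' * 𝔓.p)) : ℤ) :=
          mul_le_mul_of_nonneg_left (by exact_mod_cast hD) (Int.natCast_nonneg _)
        push_cast at h1 h2 ⊢
        linarith }, rfl, ?_⟩
  exact (s33wq_res_X 𝔓 N' h H su hsx).trans (s33wq_xb 𝔓 N' h H su hsx)

end Fields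

section Top

variable (h49 : 4 ∣ N' ∨ 9 ∣ N')

include h49

/-- `x ∈ 𝒪` -/
theorem s33wq_X_mem' : s33biX 𝔓 N' h ∈ (s33qBase 𝔓 N' h).Ov := by
  obtain ⟨n, su, -, hsx, -⟩ :=
    t2i_exists_setup_fix_fr 𝔓 ⊤ N' h h49 1 (Nat.coprime_one_left _)
  exact s33wq_X_mem 𝔓 N' h ⊤ su hsx

/-- `x⁻¹ ∈ 𝒪` -/
theorem s33wq_X_inv_mem' : (s33biX 𝔓 N' h)⁻¹ ∈ (s33qBase 𝔓 N' h).Ov := by
  obtain ⟨n, su, -, hsx, -⟩ :=
    t2i_exists_setup_fix_fr 𝔓 ⊤ N' h h49 1 (Nat.coprime_one_left _)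
  exact s33wq_X_inv_mem 𝔓 N' h ⊤ su hsx

/-- `res x = (ξ, ξ)` -/
theorem s33wq_res_X' :
    (s33qBase 𝔓 N' h).res ⟨s33biX 𝔓 N' h, s33wq_X_mem' 𝔓 N' h h49⟩ =
      (t2sfXi (IsLocalRing.ResidueField ↥𝔓.P) 𝔓.p N',
        t2sfXi (IsLocalRing.ResidueField ↥𝔓.P) 𝔓.p N') := by
  obtain ⟨n, su, -, hsx, -⟩ :=
    t2i_exists_setup_fix_fr 𝔓 ⊤ N' h h49 1 (Nat.coprime_one_left _)
  exact (s33wq_res_X 𝔓 N' h ⊤ su hsx).trans (s33wq_xb 𝔓 N' h ⊤ su hsx)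

/-- **the `T2Setup` of the symmetric chart over `ℚ̄`**, from the three fields which do not go up
formally from a DVR level (`int1`, `int2`, `fin1`) -/
theorem s33wq_exists_setup
    (hint1 : ∀ (f : ↥(modularFunctionFieldBar (N' * 𝔓.p))) (hf : f ∈ (s33qBase 𝔓 N' h).Ov),
      f ∈ t2Int (K := Qb) (s33biX 𝔓 N' h) →
      IsIntegral ↥(Algebra.adjoin (IsLocalRing.ResidueField ↥𝔓.P)
        {(s33qBase 𝔓 N' h).res ⟨s33biX 𝔓 N' h, s33wq_X_mem' 𝔓 N' h h49⟩})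
        ((s33qBase 𝔓 N' h).res ⟨f, hf⟩))
    (hint2 : ∀ (f : ↥(modularFunctionFieldBar (N' * 𝔓.p))) (hf : f ∈ (s33qBase 𝔓 N' h).Ov),
      f ∈ t2Int (K := Qb) (s33biX 𝔓 N' h)⁻¹ →
      IsIntegral ↥(Algebra.adjoin (IsLocalRing.ResidueField ↥𝔓.P)
        {(s33qBase 𝔓 N' h).res ⟨(s33biX 𝔓 N' h)⁻¹, s33wq_X_inv_mem' 𝔓 N' h h49⟩})
        ((s33qBase 𝔓 N' h).res ⟨f, hf⟩))
    (hfin1 : ∃ e : ℕ, T2Fin (s33qBase 𝔓 N' h) (s33biX 𝔓 N' h) e) :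
    ∃ (n : ℕ) (su : T2Setup (s33qBase 𝔓 N' h) (Fin n)), su.x = s33biX 𝔓 N' h ∧
      su.xb = (t2sfXi (IsLocalRing.ResidueField ↥𝔓.P) 𝔓.p N',
        t2sfXi (IsLocalRing.ResidueField ↥𝔓.P) 𝔓.p N') := by
  obtain ⟨n, su, -, hsx, -⟩ :=
    t2i_exists_setup_fix_fr 𝔓 ⊤ N' h h49 1 (Nat.coprime_one_left _)
  obtain ⟨e, he⟩ := hfin1
  exact ⟨n, s33wq_setup_of_level 𝔓 N' h ⊤ su hsx hint1 hint2 e he⟩

end Top

end

end Fermat.Agent.S33W
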